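import Fermat.Agent.S55.Top.Cochains

/-!
# S55, layer SM (Shapiro + Mackey for smooth cochains), file 0: induced representations

For a subgroup `H ≤ G` and an (unbundled) representation `σ : Representation k H W` we define

* `indSpace H σ : Submodule k (G → W)`, the functions with `f (h * g) = σ h (f g)`;
* `indRep H σ : Representation k G (indSpace H σ)`, `G` acting by right translation
  `(g • f) x = f (x * g)`;
* `indEv H σ : indSpace H σ →ₗ[k] W`, evaluation at `1` (it is `H`-equivariant);
* `IndSection H`: a choice of `η : G → H` with `η (h * g) = h * η g` and `η h = h`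
  (equivalently a system of representatives of `H \ G` containing `1`).

For `H` of finite index this is both the induced and the coinduced module.
-/

set_option autoImplicit false

namespace Fermat.Agent.S55

variable {k : Type*} [CommRing k] {G : Type*} [Group G] (H : Subgroup G)
  {W : Type*} [AddCommGroup W] [Module k W] (σ : Representation k H W)

/-- The induced (= coinduced) module: functions `f : G → W` with `f (h * g) = σ h (f g)`. -/
def indSpace : Submodule k (G → W) where
  carrier := {f | ∀ (h : H) (g : G), f ((h : G) * g) = σ h (f g)}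
  add_mem' := by
    intro f f' hf hf' h g
    simp only [Pi.add_apply, hf h g, hf' h g, map_add]
  zero_mem' := by
    intro h g
    simp only [Pi.zero_apply, map_zero]
  smul_mem' := by
    intro c f hf h g
    simp only [Pi.smul_apply, hf h g, map_smul]

/-- shortcut instance: without it, instance search under a binder (e.g. for
`∀ v, smH1 (D.lev v) (D.rep (indRep H σ) v)`) exceeds `maxSynthPendingDepth` -/
instance indSpace.instAddCommGroup : AddCommGroup ↥(indSpace H σ) := inferInstance

/-- shortcut instance, see `indSpace.instAddCommGroup` -/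
instance indSpace.instModule : Module k ↥(indSpace H σ) := inferInstance

variable {H σ} in
lemma mem_indSpace {f : G → W} :
    f ∈ indSpace H σ ↔ ∀ (h : H) (g : G), f ((h : G) * g) = σ h (f g) := Iff.rfl

variable {H σ} in
lemma indSpace_apply_mul (f : indSpace H σ) (h : H) (g : G) :
    (f : G → W) ((h : G) * g) = σ h ((f : G → W) g) := f.2 h g

variable {H σ} in
lemma indSpace_apply_coe (f : indSpace H σ) (h : H) :
    (f : G → W) (h : G) = σ h ((f : G → W) 1) := by
  have := f.2 h 1
  rwa [mul_one] at this

variable {H σ} in
@[ext] lemma indSpace_ext {f f' : indSpace H σ} (h : ∀ x, (f : G → W) x = (f' : G → W) x) :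
    f = f' := Subtype.ext (funext h)

/-- Right translation on the induced module. -/
def indRep : Representation k G (indSpace H σ) where
  toFun g :=
    { toFun := fun f => ⟨fun x => (f : G → W) (x * g), fun h x => by
        show (f : G → W) ((h : G) * x * g) = σ h ((f : G → W) (x * g))
        rw [mul_assoc]; exact f.2 h (x * g)⟩
      map_add' := fun f f' => by ext x; rfl
      map_smul' := fun c f => by ext x; rfl }
  map_one' := by
    ext f x
    simp only [mul_one, LinearMap.coe_mk, AddHom.coe_mk, Module.End.one_apply]
  map_mul' g g' := by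
    ext f x
    simp only [mul_assoc, LinearMap.coe_mk, AddHom.coe_mk, Module.End.mul_apply]

@[simp] lemma indRep_apply (g : G) (f : indSpace H σ) (x : G) :
    ((indRep H σ g f : indSpace H σ) : G → W) x = (f : G → W) (x * g) := rfl

/-- Evaluation at `1`. -/
def indEv : indSpace H σ →ₗ[k] W where
  toFun f := (f : G → W) 1
  map_add' _ _ := rfl
  map_smul' _ _ := rfl

@[simp] lemma indEv_apply (f : indSpace H σ) : indEv H σ f = (f : G → W) 1 := rfl

/-- Evaluation at `1` is `H`-equivariant. -/
lemma indEv_indRep (h : H) (f : indSpace H σ) :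
    indEv H σ (indRep H σ (h : G) f) = σ h (indEv H σ f) := by
  simp only [indEv_apply, indRep_apply, one_mul]
  exact indSpace_apply_coe f h

/-- A choice of `H`-equivariant retraction `η : G → H` (equivalently, of representatives of the
right cosets `H g`, the coset `H` being represented by `1`). -/
structure IndSection (H : Subgroup G) where
  /-- the retraction -/
  η : G → H
  map_mul' : ∀ (h : H) (g : G), η ((h : G) * g) = h * η g
  map_coe' : ∀ h : H, η (h : G) = h

namespace IndSection

variable {H}
variable (s : IndSection H)

@[simp] lemma map_mul (h : H) (g : G) : s.η ((h : G) * g) = h * s.η g := s.map_mul' h g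
@[simp] lemma map_coe (h : H) : s.η (h : G) = h := s.map_coe' h
@[simp] lemma map_one : s.η (1 : G) = 1 := by
  have := s.map_coe 1
  rwa [Subgroup.coe_one] at this

/-- The representative `τ g = (η g)⁻¹ g` of the coset `H g`. -/
def τ (g : G) : G := ((s.η g : H) : G)⁻¹ * g

lemma coe_η_mul_τ (g : G) : ((s.η g : H) : G) * s.τ g = g := by
  simp only [τ, mul_inv_cancel_left]

@[simp] lemma τ_mul (h : H) (g : G) : s.τ ((h : G) * g) = s.τ g := by
  simp only [τ, map_mul, Subgroup.coe_mul, mul_inv_rev, mul_assoc, inv_mul_cancel_left]

@[simp] lemma τ_coe (h : H) : s.τ (h : G) = 1 := by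
  simp only [τ, map_coe, inv_mul_cancel]

/-- The "cocycle" `c (y, g) = (η y)⁻¹ η (y g) ∈ H`. -/
def c (y g : G) : H := (s.η y)⁻¹ * s.η (y * g)

lemma c_def (y g : G) : s.c y g = (s.η y)⁻¹ * s.η (y * g) := rfl

lemma η_mul_c (y g : G) : s.η y * s.c y g = s.η (y * g) := by
  simp only [c, mul_inv_cancel_left]

lemma c_mul (y g g' : G) : s.c y (g * g') = s.c y g * s.c (y * g) g' := by
  simp only [c, mul_assoc, mul_inv_cancel_left]

@[simp] lemma c_one (y : G) : s.c y 1 = 1 := by
  simp only [c, mul_one, inv_mul_cancel]

@[simp] lemma c_coe_coe (h h' : H) : s.c (h : G) (h' : G) = h' := by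
  simp only [c, ← Subgroup.coe_mul, map_coe, inv_mul_cancel_left]

@[simp] lemma c_one_coe (h' : H) : s.c (1 : G) (h' : G) = h' := by
  have := s.c_coe_coe 1 h'
  rwa [Subgroup.coe_one] at this

lemma c_mul_left (h : H) (y g : G) : s.c ((h : G) * y) g = s.c y g := by
  simp only [c, mul_assoc, map_mul, mul_inv_rev, inv_mul_cancel_left]

lemma coe_c_mul_τ (y g : G) : ((s.c y g : H) : G) * s.τ (y * g) = s.τ y * g := by
  simp only [c, τ, Subgroup.coe_mul, Subgroup.coe_inv, mul_assoc, mul_inv_cancel_left]

end IndSection

/-- Sections exist. -/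
theorem nonempty_indSection (H : Subgroup G) : Nonempty (IndSection H) := by
  classical
  -- representatives of the right cosets
  let r : G → G := fun g =>
    if g ∈ H then 1 else Quotient.out (s := QuotientGroup.rightRel H) (Quotient.mk _ g)
  have hr : ∀ g, g * (r g)⁻¹ ∈ H := by
    intro g
    by_cases hg : g ∈ H
    · simp only [r, if_pos hg, inv_one, mul_one, hg]
    · simp only [r, if_neg hg]
      have := Quotient.mk_out (s := QuotientGroup.rightRel H) g
      have h2 : QuotientGroup.rightRel H
          (Quotient.out (s := QuotientGroup.rightRel H) (Quotient.mk _ g)) g := this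
      rw [QuotientGroup.rightRel_apply] at h2
      exact h2
  have hr_mul : ∀ (h : H) (g : G), r ((h : G) * g) = r g := by
    intro h g
    have hmem : (h : G) * g ∈ H ↔ g ∈ H := by
      constructor
      · intro hh
        have := H.mul_mem (H.inv_mem h.2) hh
        rwa [inv_mul_cancel_left] at this
      · intro hg
        exact H.mul_mem h.2 hg
    by_cases hg : g ∈ H
    · simp only [r, if_pos hg, if_pos (hmem.2 hg)]
    · have hg' : ¬ ((h : G) * g ∈ H) := fun hh => hg (hmem.1 hh)
      simp only [r, if_neg hg, if_neg hg']
      congr 1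
      apply Quotient.sound
      show QuotientGroup.rightRel H ((h : G) * g) g
      rw [QuotientGroup.rightRel_apply]
      simp only [mul_inv_rev, mul_inv_cancel_left]
      exact H.inv_mem h.2
  refine ⟨⟨fun g => ⟨g * (r g)⁻¹, hr g⟩, ?_, ?_⟩⟩
  · intro h g
    apply Subtype.ext
    simp only [hr_mul, Subgroup.coe_mul, mul_assoc]
  · intro h
    apply Subtype.ext
    simp only [r, if_pos h.2, inv_one, mul_one]

end Fermat.Agent.S55
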