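import Fermat.Agent.S55.SM.ShapiroSmooth

/-!
# S55, layer SM, file 4: Shapiro's lemma `smHₙ 𝓛 (indRep H σ) ≃ₗ[k] smHₙ (𝓛.sub H) σ`, `n ≤ 3`

`H` is an open subgroup of `(G, 𝓛)` (for `n = 0` any subgroup).  The forward maps are induced by
`shₙ` (restriction to `H` followed by evaluation at `1`); the inverse maps are induced by `indₙ s`
for any section `s : IndSection H`.
-/

set_option autoImplicit false

namespace Fermat.Agent.S55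

variable {k : Type*} [CommRing k] {G : Type*} [Group G] (𝓛 : Levels G) (H : Subgroup G)
  {W : Type*} [AddCommGroup W] [Module k W] (σ : Representation k H W)

section Zero

variable {H}
variable (s : IndSection H)

lemma ind1_zero : ind1 σ s (0 : H → W) = 0 := by
  ext g y
  simp only [ind1_apply, hom1, Pi.zero_apply, map_zero, ZeroMemClass.coe_zero]

lemma ind2_zero : ind2 σ s (0 : H × H → W) = 0 := by
  ext ⟨g₁, g₂⟩ y
  simp only [ind2_apply, hom2, Pi.zero_apply, map_zero, ZeroMemClass.coe_zero]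

lemma ind3_zero : ind3 σ s (0 : H × H × H → W) = 0 := by
  ext ⟨g₁, g₂, g₃⟩ y
  simp only [ind3_apply, hom3, Pi.zero_apply, map_zero, ZeroMemClass.coe_zero]

lemma ind4_zero : ind4 σ s (0 : H × H × H × H → W) = 0 := by
  ext ⟨g₁, g₂, g₃, g₄⟩ y
  simp only [ind4_apply, hom4, Pi.zero_apply, map_zero, ZeroMemClass.coe_zero]

lemma ind1_add (φ ψ : H → W) : ind1 σ s (φ + ψ) = ind1 σ s φ + ind1 σ s ψ := by
  ext g y
  simp only [ind1_apply, hom1, Pi.add_apply, map_add, Submodule.coe_add]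

lemma ind2_add (φ ψ : H × H → W) : ind2 σ s (φ + ψ) = ind2 σ s φ + ind2 σ s ψ := by
  ext ⟨g₁, g₂⟩ y
  simp only [ind2_apply, hom2, Pi.add_apply, map_add, Submodule.coe_add]

lemma ind3_add (φ ψ : H × H × H → W) : ind3 σ s (φ + ψ) = ind3 σ s φ + ind3 σ s ψ := by
  ext ⟨g₁, g₂, g₃⟩ y
  simp only [ind3_apply, hom3, Pi.add_apply, map_add, Submodule.coe_add]

/-- homotopy identity in degree `0` -/
theorem prism_identity0 (F : indSpace H σ) :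
    F - ind0 σ s (sh0 H σ F) = prism1 σ s (dd0 (indRep H σ) F) := by
  ext y
  simp only [Submodule.coe_sub, Pi.sub_apply, ind0_apply, hom0, indEv_apply, prism1_apply,
    iPhi1_dd0, ← indSpace_apply_coe F (s.η y)]

end Zero

/-! ### degree 0 -/

/-- Shapiro in degree `0`: `(Ind W)^G ≃ W^H`. -/
noncomputable def smShapiro0 : ↥(smH0 (indRep H σ)) ≃ₗ[k] ↥(smH0 σ) := by
  classical
  let s : IndSection H := Classical.choice (nonempty_indSection H)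
  refine
    { toFun := fun F => ⟨sh0 H σ (F : indSpace H σ), ?_⟩
      map_add' := fun F F' => rfl
      map_smul' := fun c F => rfl
      invFun := fun w => ⟨ind0 σ s (w : W), ?_⟩
      left_inv := ?_
      right_inv := ?_ }
  · have hF : dd0 (indRep H σ) (F : indSpace H σ) = 0 := F.2
    show dd0 σ (sh0 H σ (F : indSpace H σ)) = 0
    rw [← sh1_dd0, hF, map_zero]
  · have hw : dd0 σ (w : W) = 0 := w.2
    show dd0 (indRep H σ) (ind0 σ s (w : W)) = 0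
    rw [← ind1_dd0, hw, ind1_zero]
  · intro F
    apply Subtype.ext
    have hF : dd0 (indRep H σ) (F : indSpace H σ) = 0 := F.2
    have h := prism_identity0 σ s (F : indSpace H σ)
    rw [hF] at h
    have h0 : prism1 σ s (0 : G → indSpace H σ) = 0 := by
      ext y
      simp only [prism1_apply, iPhi1, Pi.zero_apply, ZeroMemClass.coe_zero]
    rw [h0, sub_eq_zero] at h
    exact h.symm
  · intro w
    apply Subtype.ext
    exact sh0_ind0 σ s (w : W)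

@[simp] lemma smShapiro0_apply (F : ↥(smH0 (indRep H σ))) :
    ((smShapiro0 H σ F : ↥(smH0 σ)) : W) = ((F : indSpace H σ) : G → W) 1 := rfl

/-! ### the maps on cocycles -/

/-- `sh₁` on smooth cocycles -/
def shZ1 : ↥(smZ1 𝓛 (indRep H σ)) →ₗ[k] ↥(smZ1 (𝓛.sub H) σ) :=
  ((sh1 H σ).comp (smZ1 𝓛 (indRep H σ)).subtype).codRestrict (smZ1 (𝓛.sub H) σ) (fun F => by
    refine ⟨?_, isLC₁_sh1 σ F.2.2⟩
    have hF : dd1 (indRep H σ) (F : G → indSpace H σ) = 0 := F.2.1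
    show dd1 σ (sh1 H σ (F : G → indSpace H σ)) = 0
    rw [← sh2_dd1, hF, map_zero])

/-- `sh₂` on smooth cocycles -/
def shZ2 : ↥(smZ2 𝓛 (indRep H σ)) →ₗ[k] ↥(smZ2 (𝓛.sub H) σ) :=
  ((sh2 H σ).comp (smZ2 𝓛 (indRep H σ)).subtype).codRestrict (smZ2 (𝓛.sub H) σ) (fun F => by
    refine ⟨?_, isLC₂_sh2 σ F.2.2⟩
    have hF : dd2 (indRep H σ) (F : G × G → indSpace H σ) = 0 := F.2.1
    show dd2 σ (sh2 H σ (F : G × G → indSpace H σ)) = 0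
    rw [← sh3_dd2, hF, map_zero])

/-- `sh₃` on smooth cocycles -/
def shZ3 : ↥(smZ3 𝓛 (indRep H σ)) →ₗ[k] ↥(smZ3 (𝓛.sub H) σ) :=
  ((sh3 H σ).comp (smZ3 𝓛 (indRep H σ)).subtype).codRestrict (smZ3 (𝓛.sub H) σ) (fun F => by
    refine ⟨?_, isLC₃_sh3 σ F.2.2⟩
    have hF : dd3 (indRep H σ) (F : G × G × G → indSpace H σ) = 0 := F.2.1
    show dd3 σ (sh3 H σ (F : G × G × G → indSpace H σ)) = 0
    rw [← sh4_dd3, hF, map_zero])

@[simp] lemma coe_shZ1 (F : ↥(smZ1 𝓛 (indRep H σ))) :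
    ((shZ1 𝓛 H σ F : ↥(smZ1 (𝓛.sub H) σ)) : H → W) = sh1 H σ (F : G → indSpace H σ) := rfl
@[simp] lemma coe_shZ2 (F : ↥(smZ2 𝓛 (indRep H σ))) :
    ((shZ2 𝓛 H σ F : ↥(smZ2 (𝓛.sub H) σ)) : H × H → W) = sh2 H σ (F : G × G → indSpace H σ) :=
  rfl
@[simp] lemma coe_shZ3 (F : ↥(smZ3 𝓛 (indRep H σ))) :
    ((shZ3 𝓛 H σ F : ↥(smZ3 (𝓛.sub H) σ)) : H × H × H → W)
      = sh3 H σ (F : G × G × G → indSpace H σ) := rfl

/-- the Shapiro map `H¹(G, Ind W) → H¹(H, W)` -/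
def smShapiro1Hom : smH1 𝓛 (indRep H σ) →ₗ[k] smH1 (𝓛.sub H) σ :=
  Submodule.mapQ _ _ (shZ1 𝓛 H σ) (by
    rintro F ⟨m, hm⟩
    refine ⟨sh0 H σ m, ?_⟩
    show dd0 σ (sh0 H σ m) = sh1 H σ (F : G → indSpace H σ)
    rw [← sh1_dd0, hm]
    rfl)

/-- the Shapiro map `H²(G, Ind W) → H²(H, W)` -/
def smShapiro2Hom : smH2 𝓛 (indRep H σ) →ₗ[k] smH2 (𝓛.sub H) σ :=
  Submodule.mapQ _ _ (shZ2 𝓛 H σ) (by
    rintro F ⟨x, hx, hxF⟩
    refine ⟨sh1 H σ x, isLC₁_sh1 σ hx, ?_⟩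
    show dd1 σ (sh1 H σ x) = sh2 H σ (F : G × G → indSpace H σ)
    rw [← sh2_dd1, hxF]
    rfl)

/-- the Shapiro map `H³(G, Ind W) → H³(H, W)` -/
def smShapiro3Hom : smH3 𝓛 (indRep H σ) →ₗ[k] smH3 (𝓛.sub H) σ :=
  Submodule.mapQ _ _ (shZ3 𝓛 H σ) (by
    rintro F ⟨x, hx, hxF⟩
    refine ⟨sh2 H σ x, isLC₂_sh2 σ hx, ?_⟩
    show dd2 σ (sh2 H σ x) = sh3 H σ (F : G × G × G → indSpace H σ)
    rw [← sh3_dd2, hxF]
    rfl)

@[simp] lemma smShapiro1Hom_mk (F : ↥(smZ1 𝓛 (indRep H σ))) :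
    smShapiro1Hom 𝓛 H σ (smH1π 𝓛 (indRep H σ) F) = smH1π (𝓛.sub H) σ (shZ1 𝓛 H σ F) := rfl
@[simp] lemma smShapiro2Hom_mk (F : ↥(smZ2 𝓛 (indRep H σ))) :
    smShapiro2Hom 𝓛 H σ (smH2π 𝓛 (indRep H σ) F) = smH2π (𝓛.sub H) σ (shZ2 𝓛 H σ F) := rfl
@[simp] lemma smShapiro3Hom_mk (F : ↥(smZ3 𝓛 (indRep H σ))) :
    smShapiro3Hom 𝓛 H σ (smH3π 𝓛 (indRep H σ) F) = smH3π (𝓛.sub H) σ (shZ3 𝓛 H σ F) := rfl

/-! ### the inverse maps on cocycles -/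

variable {H} in
/-- `ind₁` on smooth cocycles -/
def indZ1 (hH : 𝓛.IsOpen H) (s : IndSection H) (φ : ↥(smZ1 (𝓛.sub H) σ)) :
    ↥(smZ1 𝓛 (indRep H σ)) :=
  ⟨ind1 σ s (φ : H → W), by
    refine ⟨?_, isLC₁_ind1 s hH φ.2.2⟩
    have hφ : dd1 σ (φ : H → W) = 0 := φ.2.1
    show dd1 (indRep H σ) (ind1 σ s (φ : H → W)) = 0
    rw [← ind2_dd1, hφ, ind2_zero]⟩

variable {H} in
/-- `ind₂` on smooth cocycles -/
def indZ2 (hH : 𝓛.IsOpen H) (s : IndSection H) (φ : ↥(smZ2 (𝓛.sub H) σ)) :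
    ↥(smZ2 𝓛 (indRep H σ)) :=
  ⟨ind2 σ s (φ : H × H → W), by
    refine ⟨?_, isLC₂_ind2 s hH φ.2.2⟩
    have hφ : dd2 σ (φ : H × H → W) = 0 := φ.2.1
    show dd2 (indRep H σ) (ind2 σ s (φ : H × H → W)) = 0
    rw [← ind3_dd2, hφ, ind3_zero]⟩

variable {H} in
/-- `ind₃` on smooth cocycles -/
def indZ3 (hH : 𝓛.IsOpen H) (s : IndSection H) (φ : ↥(smZ3 (𝓛.sub H) σ)) :
    ↥(smZ3 𝓛 (indRep H σ)) :=
  ⟨ind3 σ s (φ : H × H × H → W), by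
    refine ⟨?_, isLC₃_ind3 s hH φ.2.2⟩
    have hφ : dd3 σ (φ : H × H × H → W) = 0 := φ.2.1
    show dd3 (indRep H σ) (ind3 σ s (φ : H × H × H → W)) = 0
    rw [← ind4_dd3, hφ, ind4_zero]⟩

variable {H} in
lemma shZ1_indZ1 (hH : 𝓛.IsOpen H) (s : IndSection H) (φ : ↥(smZ1 (𝓛.sub H) σ)) :
    shZ1 𝓛 H σ (indZ1 𝓛 σ hH s φ) = φ :=
  Subtype.ext (sh1_ind1 σ s (φ : H → W))

variable {H} in
lemma shZ2_indZ2 (hH : 𝓛.IsOpen H) (s : IndSection H) (φ : ↥(smZ2 (𝓛.sub H) σ)) :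
    shZ2 𝓛 H σ (indZ2 𝓛 σ hH s φ) = φ :=
  Subtype.ext (sh2_ind2 σ s (φ : H × H → W))

variable {H} in
lemma shZ3_indZ3 (hH : 𝓛.IsOpen H) (s : IndSection H) (φ : ↥(smZ3 (𝓛.sub H) σ)) :
    shZ3 𝓛 H σ (indZ3 𝓛 σ hH s φ) = φ :=
  Subtype.ext (sh3_ind3 σ s (φ : H × H × H → W))

/-! ### bijectivity -/

variable {H}

theorem smShapiro1Hom_injective : Function.Injective (smShapiro1Hom 𝓛 H σ) := by
  classical
  let s : IndSection H := Classical.choice (nonempty_indSection H)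
  rw [← LinearMap.ker_eq_bot, LinearMap.ker_eq_bot']
  intro x hx
  obtain ⟨F, rfl⟩ := Submodule.mkQ_surjective _ x
  rw [smShapiro1Hom_mk, smH1π_eq_zero_iff] at hx
  rw [smH1π_eq_zero_iff]
  obtain ⟨w, hw⟩ := hx
  have hF : dd1 (indRep H σ) (F : G → indSpace H σ) = 0 := F.2.1
  have h := prism_identity1 σ s (F : G → indSpace H σ)
  rw [hF, prism2_zero, add_zero] at h
  refine ⟨ind0 σ s w + prism1 σ s (F : G → indSpace H σ), ?_⟩
  rw [map_add, ← ind1_dd0, hw, ← h]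
  simp only [coe_shZ1, add_sub_cancel]

theorem smShapiro1Hom_surjective (hH : 𝓛.IsOpen H) :
    Function.Surjective (smShapiro1Hom 𝓛 H σ) := by
  classical
  let s : IndSection H := Classical.choice (nonempty_indSection H)
  intro y
  obtain ⟨φ, rfl⟩ := Submodule.mkQ_surjective _ y
  exact ⟨smH1π 𝓛 (indRep H σ) (indZ1 𝓛 σ hH s φ), by rw [smShapiro1Hom_mk, shZ1_indZ1]⟩

theorem smShapiro2Hom_injective (hH : 𝓛.IsOpen H) :
    Function.Injective (smShapiro2Hom 𝓛 H σ) := by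
  classical
  let s : IndSection H := Classical.choice (nonempty_indSection H)
  rw [← LinearMap.ker_eq_bot, LinearMap.ker_eq_bot']
  intro x hx
  obtain ⟨F, rfl⟩ := Submodule.mkQ_surjective _ x
  rw [smShapiro2Hom_mk, smH2π_eq_zero_iff, mem_smB2] at hx
  rw [smH2π_eq_zero_iff, mem_smB2]
  obtain ⟨ψ, hψ, hψF⟩ := hx
  have hF : dd2 (indRep H σ) (F : G × G → indSpace H σ) = 0 := F.2.1
  have h := prism_identity2 σ s (F : G × G → indSpace H σ)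
  rw [hF, prism3_zero, add_zero] at h
  refine ⟨ind1 σ s ψ + prism2 σ s (F : G × G → indSpace H σ),
    (isLC₁_ind1 s hH hψ).map₂ (isLC₁_prism2 s hH F.2.2) (· + ·), ?_⟩
  rw [map_add, ← ind2_dd1, hψF, ← h]
  simp only [coe_shZ2, add_sub_cancel]

theorem smShapiro2Hom_surjective (hH : 𝓛.IsOpen H) :
    Function.Surjective (smShapiro2Hom 𝓛 H σ) := by
  classical
  let s : IndSection H := Classical.choice (nonempty_indSection H)
  intro y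
  obtain ⟨φ, rfl⟩ := Submodule.mkQ_surjective _ y
  exact ⟨smH2π 𝓛 (indRep H σ) (indZ2 𝓛 σ hH s φ), by rw [smShapiro2Hom_mk, shZ2_indZ2]⟩

theorem smShapiro3Hom_injective (hH : 𝓛.IsOpen H) :
    Function.Injective (smShapiro3Hom 𝓛 H σ) := by
  classical
  let s : IndSection H := Classical.choice (nonempty_indSection H)
  rw [← LinearMap.ker_eq_bot, LinearMap.ker_eq_bot']
  intro x hx
  obtain ⟨F, rfl⟩ := Submodule.mkQ_surjective _ x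
  rw [smShapiro3Hom_mk, smH3π_eq_zero_iff, mem_smB3] at hx
  rw [smH3π_eq_zero_iff, mem_smB3]
  obtain ⟨ψ, hψ, hψF⟩ := hx
  have hF : dd3 (indRep H σ) (F : G × G × G → indSpace H σ) = 0 := F.2.1
  have h := prism_identity3 σ s (F : G × G × G → indSpace H σ)
  rw [hF, prism4_zero, add_zero] at h
  refine ⟨ind2 σ s ψ + prism3 σ s (F : G × G × G → indSpace H σ),
    (isLC₂_ind2 s hH hψ).map₂ (isLC₂_prism3 s hH F.2.2) (· + ·), ?_⟩
  rw [map_add, ← ind3_dd2, hψF, ← h]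
  simp only [coe_shZ3, add_sub_cancel]

theorem smShapiro3Hom_surjective (hH : 𝓛.IsOpen H) :
    Function.Surjective (smShapiro3Hom 𝓛 H σ) := by
  classical
  let s : IndSection H := Classical.choice (nonempty_indSection H)
  intro y
  obtain ⟨φ, rfl⟩ := Submodule.mkQ_surjective _ y
  exact ⟨smH3π 𝓛 (indRep H σ) (indZ3 𝓛 σ hH s φ), by rw [smShapiro3Hom_mk, shZ3_indZ3]⟩

/-! ### the equivalences -/

/-- **Shapiro's lemma** in degree `1`. -/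
noncomputable def smShapiro1 (hH : 𝓛.IsOpen H) : smH1 𝓛 (indRep H σ) ≃ₗ[k] smH1 (𝓛.sub H) σ :=
  LinearEquiv.ofBijective (smShapiro1Hom 𝓛 H σ)
    ⟨smShapiro1Hom_injective 𝓛 σ, smShapiro1Hom_surjective 𝓛 σ hH⟩

/-- **Shapiro's lemma** in degree `2`. -/
noncomputable def smShapiro2 (hH : 𝓛.IsOpen H) : smH2 𝓛 (indRep H σ) ≃ₗ[k] smH2 (𝓛.sub H) σ :=
  LinearEquiv.ofBijective (smShapiro2Hom 𝓛 H σ)
    ⟨smShapiro2Hom_injective 𝓛 σ hH, smShapiro2Hom_surjective 𝓛 σ hH⟩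

/-- **Shapiro's lemma** in degree `3`. -/
noncomputable def smShapiro3 (hH : 𝓛.IsOpen H) : smH3 𝓛 (indRep H σ) ≃ₗ[k] smH3 (𝓛.sub H) σ :=
  LinearEquiv.ofBijective (smShapiro3Hom 𝓛 H σ)
    ⟨smShapiro3Hom_injective 𝓛 σ hH, smShapiro3Hom_surjective 𝓛 σ hH⟩

@[simp] lemma smShapiro1_mk (hH : 𝓛.IsOpen H) (F : ↥(smZ1 𝓛 (indRep H σ))) :
    smShapiro1 𝓛 σ hH (smH1π 𝓛 (indRep H σ) F) = smH1π (𝓛.sub H) σ (shZ1 𝓛 H σ F) := rfl
@[simp] lemma smShapiro2_mk (hH : 𝓛.IsOpen H) (F : ↥(smZ2 𝓛 (indRep H σ))) :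
    smShapiro2 𝓛 σ hH (smH2π 𝓛 (indRep H σ) F) = smH2π (𝓛.sub H) σ (shZ2 𝓛 H σ F) := rfl
@[simp] lemma smShapiro3_mk (hH : 𝓛.IsOpen H) (F : ↥(smZ3 𝓛 (indRep H σ))) :
    smShapiro3 𝓛 σ hH (smH3π 𝓛 (indRep H σ) F) = smH3π (𝓛.sub H) σ (shZ3 𝓛 H σ F) := rfl

lemma smShapiro1_symm_mk (hH : 𝓛.IsOpen H) (s : IndSection H) (φ : ↥(smZ1 (𝓛.sub H) σ)) :
    (smShapiro1 𝓛 σ hH).symm (smH1π (𝓛.sub H) σ φ)
      = smH1π 𝓛 (indRep H σ) (indZ1 𝓛 σ hH s φ) := by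
  rw [LinearEquiv.symm_apply_eq, smShapiro1_mk, shZ1_indZ1]

lemma smShapiro2_symm_mk (hH : 𝓛.IsOpen H) (s : IndSection H) (φ : ↥(smZ2 (𝓛.sub H) σ)) :
    (smShapiro2 𝓛 σ hH).symm (smH2π (𝓛.sub H) σ φ)
      = smH2π 𝓛 (indRep H σ) (indZ2 𝓛 σ hH s φ) := by
  rw [LinearEquiv.symm_apply_eq, smShapiro2_mk, shZ2_indZ2]

lemma smShapiro3_symm_mk (hH : 𝓛.IsOpen H) (s : IndSection H) (φ : ↥(smZ3 (𝓛.sub H) σ)) :
    (smShapiro3 𝓛 σ hH).symm (smH3π (𝓛.sub H) σ φ)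
      = smH3π 𝓛 (indRep H σ) (indZ3 𝓛 σ hH s φ) := by
  rw [LinearEquiv.symm_apply_eq, smShapiro3_mk, shZ3_indZ3]

end Fermat.Agent.S55
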