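import Fermat.Agent.S55.SM.IndDefs

/-!
# S55, layer SM, file 5: functoriality of `Ind`, smoothness, unit and trace

* `Levels.exists_le_of_finite` : finitely many levels contain a common level;
* `smind_indRep_isSmooth` : `H` open and `σ` smooth ⟹ `indRep H σ` smooth;
* `smsmindTrace H ρ : indSpace H (ρ.comp H.subtype) →ₗ[k] V`, `f ↦ ∑_{gH} ρ g (f g⁻¹)` (finite index),
  `G`-equivariant, `smsmindTrace_indUnit : smsmindTrace (indUnit v) = H.index • v`.
-/

set_option autoImplicit false

namespace Fermat.Agent.S55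

variable {k : Type*} [CommRing k] {G : Type*} [Group G]

/-- finitely many levels contain a common level -/
theorem Levels.exists_le_of_finite (𝓛 : Levels G) {ι : Type*} [Finite ι] (U : ι → Subgroup G)
    (hU : ∀ i, 𝓛.IsLevel (U i)) : ∃ W, 𝓛.IsLevel W ∧ ∀ i, W ≤ U i := by
  classical
  induction ι using Finite.induction_empty_option with
  | of_equiv e ih =>
    obtain ⟨W, hW, h⟩ := ih (fun i => U (e i)) (fun i => hU (e i))
    exact ⟨W, hW, fun i => by simpa using h (e.symm i)⟩
  | h_empty =>
    obtain ⟨W, hW⟩ := 𝓛.exists_level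
    exact ⟨W, hW, fun i => i.elim⟩
  | h_option ih =>
    obtain ⟨W, hW, h⟩ := ih (fun i => U (some i)) (fun i => hU (some i))
    obtain ⟨W', hW', hle⟩ := 𝓛.exists_le_inf W (U none) hW (hU none)
    refine ⟨W', hW', fun i => ?_⟩
    cases i with
    | none => exact hle.trans inf_le_right
    | some i => exact (hle.trans inf_le_left).trans (h i)

section Smooth

variable {H : Subgroup G} {W : Type*} [AddCommGroup W] [Module k W]
  {σ : Representation k H W} {𝓛 : Levels G}

/-- an open subgroup has finite index -/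
lemma Levels.IsOpen.finiteIndex (hH : 𝓛.IsOpen H) : H.FiniteIndex := by
  obtain ⟨U, hU, hle⟩ := hH
  have := 𝓛.finiteIndex U hU
  exact Subgroup.finiteIndex_of_le hle

/-- the set of values of `τ` is finite when `H` has finite index -/
lemma IndSection.finite_range_τ [H.FiniteIndex] (s : IndSection H) : (Set.range s.τ).Finite := by
  classical
  -- `τ` factors through the (finite) set of right cosets
  have : Finite (Quotient (QuotientGroup.rightRel H)) :=
    Finite.of_equiv (G ⧸ H) (QuotientGroup.quotientRightRelEquivQuotientLeftRel H).symm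
  let f : Quotient (QuotientGroup.rightRel H) → G :=
    fun q => Quotient.liftOn' q s.τ (fun a b hab => by
      have hab' : b * a⁻¹ ∈ H := QuotientGroup.rightRel_apply.1 hab
      have : b = ((⟨b * a⁻¹, hab'⟩ : H) : G) * a := by simp
      rw [this, s.τ_mul])
  have : Set.range s.τ ⊆ Set.range f := by
    rintro _ ⟨g, rfl⟩
    exact ⟨Quotient.mk'' g, rfl⟩
  exact (Set.finite_range f).subset this

/-- `Ind` of a smooth representation of an open subgroup is smooth. -/
theorem smind_indRep_isSmooth (hH : 𝓛.IsOpen H) (hσ : IsSmoothRep (𝓛.sub H) σ) :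
    IsSmoothRep 𝓛 (indRep H σ) := by
  classical
  have := hH.finiteIndex
  obtain ⟨s⟩ := nonempty_indSection H
  intro f
  -- a level of `G` fixing `f t` for each representative `t`
  have hfix : ∀ t : G, ∃ U : Subgroup G, 𝓛.IsLevel U ∧
      ∀ h : H, (h : G) ∈ U → σ h ((f : G → W) t) = (f : G → W) t := by
    intro t
    obtain ⟨_, ⟨U, hU, rfl⟩, hfixU⟩ := hσ ((f : G → W) t)
    exact ⟨U, hU, fun h' hh => hfixU h' hh⟩
  choose U hU hUfix using hfix
  have : Finite (Set.range s.τ) := (s.finite_range_τ).to_subtype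
  obtain ⟨U₁, hU₁, hU₁le⟩ := 𝓛.exists_le_of_finite (fun t : Set.range s.τ => U t.1)
    (fun t => hU t.1)
  obtain ⟨U₂, hU₂, hU₂le⟩ := hH
  obtain ⟨V, hV, hVn, hV₁, hV₂⟩ := 𝓛.exists_normal_le_inf U₁ U₂ hU₁ hU₂
  refine ⟨V, hV, fun u hu => ?_⟩
  ext y
  rw [indRep_apply]
  -- `y u = (y u y⁻¹) y` and `f y = σ (η y) (f (τ y))`
  have hconj : y * u * y⁻¹ ∈ V := hVn.conj_mem u hu y
  have hy : y * u = ((⟨y * u * y⁻¹, hU₂le (hV₂ hconj)⟩ : H) : G) * y := by simp
  rw [hy, indSpace_apply_mul]
  have hfy : (f : G → W) y = σ (s.η y) ((f : G → W) (s.τ y)) := by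
    conv_lhs => rw [← s.coe_η_mul_τ y]
    exact indSpace_apply_mul f _ _
  rw [hfy, ← Module.End.mul_apply, ← map_mul]
  -- move the conjugate inside
  set v : H := ⟨y * u * y⁻¹, hU₂le (hV₂ hconj)⟩ with hv
  have hv' : v * s.η y = s.η y * ((s.η y)⁻¹ * v * s.η y) := by group
  rw [hv', map_mul, Module.End.mul_apply]
  congr 1
  apply hUfix
  have hmem : (((s.η y)⁻¹ * v * s.η y : H) : G) ∈ V := by
    have h3 : (((s.η y)⁻¹ * v * s.η y : H) : G)
        = ((s.η y : H) : G)⁻¹ * (y * u * y⁻¹) * (((s.η y : H) : G)⁻¹)⁻¹ := by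
      simp only [hv, Subgroup.coe_mul, Subgroup.coe_inv, inv_inv]
    rw [h3]
    exact hVn.conj_mem _ hconj ((s.η y : H) : G)⁻¹
  exact hU₁le ⟨s.τ y, ⟨y, rfl⟩⟩ (hV₁ hmem)

end Smooth

section UnitTrace

variable (H : Subgroup G) {V : Type*} [AddCommGroup V] [Module k V] (ρ : Representation k G V)

/-- the unit `V → Ind_H^G Res_H V`, `v ↦ (g ↦ ρ g v)` (same map as `indUnit` of `Top/Ind.lean`) -/
def smindUnit : V →ₗ[k] indSpace H (ρ.comp H.subtype) where
  toFun v := ⟨fun g => ρ g v, fun h g => by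
    simp only [map_mul, Module.End.mul_apply, MonoidHom.comp_apply, Subgroup.coe_subtype]⟩
  map_add' v v' := by ext x; simp only [map_add, Submodule.coe_add, Pi.add_apply]
  map_smul' c v := by
    ext x; simp only [map_smul, Submodule.coe_smul, Pi.smul_apply, RingHom.id_apply]

@[simp] lemma smindUnit_apply (v : V) (g : G) :
    ((smindUnit H ρ v : indSpace H (ρ.comp H.subtype)) : G → V) g = ρ g v := rfl

lemma smindUnit_equivariant (g : G) (v : V) :
    smindUnit H ρ (ρ g v) = indRep H (ρ.comp H.subtype) g (smindUnit H ρ v) := by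
  ext x
  simp only [smindUnit_apply, indRep_apply, map_mul, Module.End.mul_apply]

lemma indEv_smindUnit (v : V) : indEv H (ρ.comp H.subtype) (smindUnit H ρ v) = v := by
  simp only [indEv_apply, smindUnit_apply, map_one, Module.End.one_apply]

/-- the summand of the trace attached to a left coset `g H`: `ρ g (f g⁻¹)` -/
def smindTraceTerm (f : indSpace H (ρ.comp H.subtype)) (q : G ⧸ H) : V :=
  Quotient.liftOn' q (fun g => ρ g ((f : G → V) g⁻¹)) (fun a b hab => by
    have hab' : a⁻¹ * b ∈ H := QuotientGroup.leftRel_apply.1 hab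
    obtain ⟨h, rfl⟩ : ∃ h : H, b = a * (h : G) := ⟨⟨a⁻¹ * b, hab'⟩, by simp⟩
    show ρ a ((f : G → V) a⁻¹) = ρ (a * h) ((f : G → V) (a * h)⁻¹)
    have h1 : (a * (h : G))⁻¹ = ((h⁻¹ : H) : G) * a⁻¹ := by simp
    rw [h1, indSpace_apply_mul, map_mul, Module.End.mul_apply]
    congr 1
    simp only [MonoidHom.comp_apply, Subgroup.coe_subtype]
    rw [← Module.End.mul_apply, ← map_mul, ← Subgroup.coe_mul, mul_inv_cancel, Subgroup.coe_one,
      map_one, Module.End.one_apply])

@[simp] lemma smindTraceTerm_mk (f : indSpace H (ρ.comp H.subtype)) (g : G) :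
    smindTraceTerm H ρ f (g : G ⧸ H) = ρ g ((f : G → V) g⁻¹) := rfl

variable [H.FiniteIndex]

/-- the trace `Ind_H^G Res_H V → V`, `f ↦ ∑_{gH} ρ g (f g⁻¹)` -/
noncomputable def smindTrace : indSpace H (ρ.comp H.subtype) →ₗ[k] V where
  toFun f := ∑ᶠ q : G ⧸ H, smindTraceTerm H ρ f q
  map_add' f f' := by
    rw [← finsum_add_distrib (Set.toFinite _) (Set.toFinite _)]
    congr 1
    ext q
    induction q using QuotientGroup.induction_on with
    | H g => simp only [smindTraceTerm_mk, Submodule.coe_add, Pi.add_apply, map_add]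
  map_smul' c f := by
    rw [RingHom.id_apply, smul_finsum' _ (Set.toFinite _)]
    congr 1
    ext q
    induction q using QuotientGroup.induction_on with
    | H g => simp only [smindTraceTerm_mk, Submodule.coe_smul, Pi.smul_apply, map_smul]

lemma smindTrace_apply (f : indSpace H (ρ.comp H.subtype)) :
    smindTrace H ρ f = ∑ᶠ q : G ⧸ H, smindTraceTerm H ρ f q := rfl

/-- the trace is `G`-equivariant -/
lemma smindTrace_equivariant (g : G) (f : indSpace H (ρ.comp H.subtype)) :
    smindTrace H ρ (indRep H (ρ.comp H.subtype) g f) = ρ g (smindTrace H ρ f) := by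
  have hterm : ∀ q : G ⧸ H, smindTraceTerm H ρ (indRep H (ρ.comp H.subtype) g f) q
      = ρ g (smindTraceTerm H ρ f ((MulAction.toPerm (g⁻¹ : G) : Equiv.Perm (G ⧸ H)) q)) := by
    intro q
    induction q using QuotientGroup.induction_on with
    | H x =>
      have hx : (MulAction.toPerm (g⁻¹ : G) : Equiv.Perm (G ⧸ H)) (x : G ⧸ H)
          = ((g⁻¹ * x : G) : G ⧸ H) := rfl
      rw [hx, smindTraceTerm_mk, smindTraceTerm_mk, indRep_apply, ← Module.End.mul_apply, ← map_mul]
      simp only [mul_inv_rev, inv_inv, mul_inv_cancel_left]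
  rw [smindTrace_apply, smindTrace_apply, map_finsum _ (Set.toFinite _), finsum_congr hterm]
  exact finsum_comp_equiv (MulAction.toPerm (g⁻¹ : G) : Equiv.Perm (G ⧸ H))
    (f := fun q => ρ g (smindTraceTerm H ρ f q))

/-- `trace ∘ unit = [G : H]` -/
lemma smindTrace_smindUnit (v : V) : smindTrace H ρ (smindUnit H ρ v) = H.index • v := by
  classical
  have : Fintype (G ⧸ H) := Fintype.ofFinite _
  rw [smindTrace_apply, finsum_eq_sum_of_fintype]
  have : ∀ q : G ⧸ H, smindTraceTerm H ρ (smindUnit H ρ v) q = v := by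
    intro q
    induction q using QuotientGroup.induction_on with
    | H g =>
      rw [smindTraceTerm_mk, smindUnit_apply, ← Module.End.mul_apply, ← map_mul, mul_inv_cancel,
        map_one, Module.End.one_apply]
  rw [Finset.sum_congr rfl (fun q _ => this q), Finset.sum_const, Finset.card_univ,
    Subgroup.index_eq_card, Nat.card_eq_fintype_card]

end UnitTrace

end Fermat.Agent.S55
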