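import Fermat.Agent.S55.SM.ShapiroSmooth

/-!
# S55, layer SM, file 6: conjugation acts trivially on cohomology (explicit homotopies)

For `t : G` and a cochain `a : Gⁿ → V`, `cjₙ ρ t a (g₁,…,gₙ) = ρ t (a (t⁻¹ g₁ t, …, t⁻¹ gₙ t))`.
The homotopies `cjh₁ … cjh₄` satisfy `cjₙ a - a = dd (cjhₙ a) + cjhₙ₊₁ (dd a)` (`n = 0,…,3`), and
preserve level-constancy.
-/

set_option autoImplicit false

namespace Fermat.Agent.S55

variable {k : Type*} [CommRing k] {G : Type*} [Group G]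
  {V : Type*} [AddCommGroup V] [Module k V] (ρ : Representation k G V) (t : G)

/-- conjugation by `t` on `1`-cochains -/
def cj1 (a : G → V) : G → V := fun g => ρ t (a (t⁻¹ * g * t))
/-- conjugation by `t` on `2`-cochains -/
def cj2 (a : G × G → V) : G × G → V := fun p => ρ t (a (t⁻¹ * p.1 * t, t⁻¹ * p.2 * t))
/-- conjugation by `t` on `3`-cochains -/
def cj3 (a : G × G × G → V) : G × G × G → V :=
  fun p => ρ t (a (t⁻¹ * p.1 * t, t⁻¹ * p.2.1 * t, t⁻¹ * p.2.2 * t))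

@[simp] lemma cj1_apply (a : G → V) (g : G) : cj1 ρ t a g = ρ t (a (t⁻¹ * g * t)) := rfl
@[simp] lemma cj2_apply (a : G × G → V) (g₁ g₂ : G) :
    cj2 ρ t a (g₁, g₂) = ρ t (a (t⁻¹ * g₁ * t, t⁻¹ * g₂ * t)) := rfl
@[simp] lemma cj3_apply (a : G × G × G → V) (g₁ g₂ g₃ : G) :
    cj3 ρ t a (g₁, g₂, g₃) = ρ t (a (t⁻¹ * g₁ * t, t⁻¹ * g₂ * t, t⁻¹ * g₃ * t)) := rfl

/-- homotopy `C¹ → C⁰` -/
def cjh1 (a : G → V) : V := a t
/-- homotopy `C² → C¹` -/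
def cjh2 (a : G × G → V) : G → V := fun g => a (t, t⁻¹ * g * t) - a (g, t)
/-- homotopy `C³ → C²` -/
def cjh3 (a : G × G × G → V) : G × G → V :=
  fun p => a (p.1, p.2, t) - a (p.1, t, t⁻¹ * p.2 * t) + a (t, t⁻¹ * p.1 * t, t⁻¹ * p.2 * t)
/-- homotopy `C⁴ → C³` -/
def cjh4 (a : G × G × G × G → V) : G × G × G → V :=
  fun p => a (p.1, p.2.1, t, t⁻¹ * p.2.2 * t) - a (p.1, p.2.1, p.2.2, t)
    - a (p.1, t, t⁻¹ * p.2.1 * t, t⁻¹ * p.2.2 * t)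
    + a (t, t⁻¹ * p.1 * t, t⁻¹ * p.2.1 * t, t⁻¹ * p.2.2 * t)

omit [Group G] [AddCommGroup V] in
@[simp] lemma cjh1_apply (a : G → V) : cjh1 t a = a t := rfl
@[simp] lemma cjh2_apply (a : G × G → V) (g : G) :
    cjh2 t a g = a (t, t⁻¹ * g * t) - a (g, t) := rfl
@[simp] lemma cjh3_apply (a : G × G × G → V) (g₁ g₂ : G) :
    cjh3 t a (g₁, g₂) = a (g₁, g₂, t) - a (g₁, t, t⁻¹ * g₂ * t)
      + a (t, t⁻¹ * g₁ * t, t⁻¹ * g₂ * t) := rfl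
@[simp] lemma cjh4_apply (a : G × G × G × G → V) (g₁ g₂ g₃ : G) :
    cjh4 t a (g₁, g₂, g₃) = a (g₁, g₂, t, t⁻¹ * g₃ * t) - a (g₁, g₂, g₃, t)
      - a (g₁, t, t⁻¹ * g₂ * t, t⁻¹ * g₃ * t)
      + a (t, t⁻¹ * g₁ * t, t⁻¹ * g₂ * t, t⁻¹ * g₃ * t) := rfl

lemma cjh2_zero : cjh2 t (0 : G × G → V) = 0 := by
  ext g; simp only [cjh2_apply, Pi.zero_apply, sub_self]
lemma cjh3_zero : cjh3 t (0 : G × G × G → V) = 0 := by
  ext ⟨g₁, g₂⟩; simp only [cjh3_apply, Pi.zero_apply, sub_self, add_zero]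
lemma cjh4_zero : cjh4 t (0 : G × G × G × G → V) = 0 := by
  ext ⟨g₁, g₂, g₃⟩; simp only [cjh4_apply, Pi.zero_apply, sub_self, add_zero]

/-- homotopy identity, degree `0` -/
theorem cj_identity0 (m : V) : ρ t m - m = cjh1 t (dd0 ρ m) := by
  simp only [cjh1_apply, dd0_apply]

/-- homotopy identity, degree `1` -/
theorem cj_identity1 (a : G → V) :
    cj1 ρ t a - a = dd0 ρ (cjh1 t a) + cjh2 t (dd1 ρ a) := by
  ext g
  simp only [Pi.sub_apply, Pi.add_apply, cj1_apply, dd0_apply, cjh1_apply, cjh2_apply, dd1_apply,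
    mul_assoc, mul_inv_cancel_left]
  abel

/-- homotopy identity, degree `2` -/
theorem cj_identity2 (a : G × G → V) :
    cj2 ρ t a - a = dd1 ρ (cjh2 t a) + cjh3 t (dd2 ρ a) := by
  ext ⟨g₁, g₂⟩
  simp only [Pi.sub_apply, Pi.add_apply, cj2_apply, dd1_apply, cjh2_apply, cjh3_apply, dd2_apply,
    mul_assoc, mul_inv_cancel_left, map_sub]
  abel

/-- homotopy identity, degree `3` -/
theorem cj_identity3 (a : G × G × G → V) :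
    cj3 ρ t a - a = dd2 ρ (cjh3 t a) + cjh4 t (dd3 ρ a) := by
  ext ⟨g₁, g₂, g₃⟩
  simp only [Pi.sub_apply, Pi.add_apply, cj3_apply, dd2_apply, cjh3_apply, cjh4_apply, dd3_apply,
    mul_assoc, mul_inv_cancel_left, map_sub, map_add]
  abel

/-! ### level-constancy -/

section LC

variable {t} {X : Type*}

lemma conj_mk_eq (U : Subgroup G) [U.Normal] {a b : G} (h : (a : G ⧸ U) = (b : G ⧸ U)) (t : G) :
    ((t⁻¹ * a * t : G) : G ⧸ U) = ((t⁻¹ * b * t : G) : G ⧸ U) := by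
  simp only [QuotientGroup.mk_mul, h]

lemma isUC₁_cjh2 (U : Subgroup G) [U.Normal] {a : G × G → V} (ha : IsUC₂ U a) (t : G) :
    IsUC₁ U (cjh2 t a) := by
  intro g g' h
  have h' : (g : G ⧸ U) = (g' : G ⧸ U) := QuotientGroup.eq.2 h
  simp only [cjh2_apply]
  rw [ha t (t⁻¹ * g * t) t (t⁻¹ * g' * t) (by simp) (QuotientGroup.eq.1 (conj_mk_eq U h' t)),
    ha g t g' t h (by simp)]

lemma isUC₂_cjh3 (U : Subgroup G) [U.Normal] {a : G × G × G → V} (ha : IsUC₃ U a) (t : G) :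
    IsUC₂ U (cjh3 t a) := by
  intro g₁ g₂ g₁' g₂' h₁ h₂
  have h₁' : (g₁ : G ⧸ U) = (g₁' : G ⧸ U) := QuotientGroup.eq.2 h₁
  have h₂' : (g₂ : G ⧸ U) = (g₂' : G ⧸ U) := QuotientGroup.eq.2 h₂
  simp only [cjh3_apply]
  rw [ha g₁ g₂ t g₁' g₂' t h₁ h₂ (by simp),
    ha g₁ t (t⁻¹ * g₂ * t) g₁' t (t⁻¹ * g₂' * t) h₁ (by simp)
      (QuotientGroup.eq.1 (conj_mk_eq U h₂' t)),
    ha t (t⁻¹ * g₁ * t) (t⁻¹ * g₂ * t) t (t⁻¹ * g₁' * t) (t⁻¹ * g₂' * t) (by simp)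
      (QuotientGroup.eq.1 (conj_mk_eq U h₁' t)) (QuotientGroup.eq.1 (conj_mk_eq U h₂' t))]

variable {𝓛 : Levels G}

lemma isLC₁_cjh2 {a : G × G → V} (ha : IsLC₂ 𝓛 a) (t : G) : IsLC₁ 𝓛 (cjh2 t a) := by
  obtain ⟨U₀, hU₀⟩ := 𝓛.exists_level
  obtain ⟨U, hU, hn, -, hUC⟩ := ha.exists_isUC (V := U₀) ⟨U₀, hU₀, le_rfl⟩
  exact (isUC₁_cjh2 U hUC t).isLC 𝓛 hU

lemma isLC₂_cjh3 {a : G × G × G → V} (ha : IsLC₃ 𝓛 a) (t : G) : IsLC₂ 𝓛 (cjh3 t a) := by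
  obtain ⟨U₀, hU₀⟩ := 𝓛.exists_level
  obtain ⟨U, hU, hn, -, hUC⟩ := ha.exists_isUC (V := U₀) ⟨U₀, hU₀, le_rfl⟩
  exact (isUC₂_cjh3 U hUC t).isLC 𝓛 hU

end LC

end Fermat.Agent.S55
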