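import Fermat.Agent.S55.SM.MackeyCoh
import Fermat.Agent.S55.SM.Conj
import Fermat.Agent.S55.Top.LesSpec

/-!
# S55, layer SM, file 9: Mackey–Shapiro is compatible with restriction

For `r : Γ →* G` continuous, `H ≤ G`, `t : G`, and a class `x ∈ smHⁿ(G, Ind_H σ)`:
the `t`-component of the Mackey–Shapiro image of `res_r x` is the restriction of the Shapiro
image of `x` along `mackeyHom r H t : Γ_t → H`, `γ ↦ t r(γ) t⁻¹`  (`n = 0, 1, 2`).

Also: the local system `D.mackey H rep` of an open subgroup (local groups = Mackey subgroups).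
-/

set_option autoImplicit false

namespace Fermat.Agent.S55

section Cochain

variable {k : Type*} [CommRing k] {G Γ : Type*} [Group G] [Group Γ] (r : Γ →* G)
  (H : Subgroup G) {V : Type*} [AddCommGroup V] [Module k V] (σ : Representation k H V) (t : G)

/-- `F ↦ (δ ↦ F(r δ)(t))` on `1`-cochains -/
def mkyL1 : (G → ↥(indSpace H σ)) →ₗ[k] (↥(mackeySub r H t) → V) where
  toFun F δ := (F (r δ) : G → V) t
  map_add' _ _ := rfl
  map_smul' _ _ := rfl

/-- `F ↦ (δ⃗ ↦ F(r δ⃗)(t))` on `2`-cochains -/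
def mkyL2 : (G × G → ↥(indSpace H σ)) →ₗ[k] (↥(mackeySub r H t) × ↥(mackeySub r H t) → V) where
  toFun F p := (F (r p.1, r p.2) : G → V) t
  map_add' _ _ := rfl
  map_smul' _ _ := rfl

@[simp] lemma mkyL1_apply (F : G → ↥(indSpace H σ)) (δ : ↥(mackeySub r H t)) :
    mkyL1 r H σ t F δ = (F (r δ) : G → V) t := rfl
@[simp] lemma mkyL2_apply (F : G × G → ↥(indSpace H σ)) (δ δ' : ↥(mackeySub r H t)) :
    mkyL2 r H σ t F (δ, δ') = (F (r δ, r δ') : G → V) t := rfl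

/-- the key relation `f (t r(δ)) = σ^t(δ) (f t)` -/
lemma mky_apply_mul_rep (f : ↥(indSpace H σ)) (δ : ↥(mackeySub r H t)) :
    (f : G → V) (t * r δ) = mackeyRep r H σ t δ ((f : G → V) t) := by
  have := indSpace_apply_mul f (mackeyHom r H t δ) t
  rw [coe_mackeyHom, inv_mul_cancel_right] at this
  exact this

lemma mkyL1_dd0 (m : ↥(indSpace H σ)) :
    mkyL1 r H σ t (dd0 (indRep H σ) m) = dd0 (mackeyRep r H σ t) ((m : G → V) t) := by
  ext δ
  simp only [mkyL1_apply, dd0_apply, Submodule.coe_sub, Pi.sub_apply, indRep_apply]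
  rw [mky_apply_mul_rep]

lemma mkyL2_dd1 (b : G → ↥(indSpace H σ)) :
    mkyL2 r H σ t (dd1 (indRep H σ) b) = dd1 (mackeyRep r H σ t) (mkyL1 r H σ t b) := by
  ext ⟨δ, δ'⟩
  simp only [mkyL2_apply, dd1_apply, Submodule.coe_sub, Submodule.coe_add, Pi.sub_apply,
    Pi.add_apply, indRep_apply, mkyL1_apply, Subgroup.coe_mul, map_mul]
  rw [mky_apply_mul_rep]

/-- `Λ₁ (cj_{t⁻¹} a) = res (sh₁ a)` -/
lemma mkyL1_cj1 (a : G → ↥(indSpace H σ)) :
    mkyL1 r H σ t (cj1 (indRep H σ) t⁻¹ a) = res1 k (mackeyHom r H t) (sh1 H σ a) := by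
  ext δ
  simp only [mkyL1_apply, cj1_apply, indRep_apply, inv_inv, mul_inv_cancel, res1_apply,
    sh1_apply, coe_mackeyHom]

/-- `Λ₂ (cj_{t⁻¹} a) = res (sh₂ a)` -/
lemma mkyL2_cj2 (a : G × G → ↥(indSpace H σ)) :
    mkyL2 r H σ t (cj2 (indRep H σ) t⁻¹ a) = res2 k (mackeyHom r H t) (sh2 H σ a) := by
  ext ⟨δ, δ'⟩
  simp only [mkyL2_apply, cj2_apply, indRep_apply, inv_inv, mul_inv_cancel, res2_apply,
    sh2_apply, coe_mackeyHom]

variable {𝓛 : Levels G} {𝓛Γ : Levels Γ} (hr : 𝓛Γ.Continuous 𝓛 r)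

include hr in
lemma isLC₁_mkyL1 {b : G → ↥(indSpace H σ)} (hb : IsLC₁ 𝓛 b) :
    IsLC₁ (𝓛Γ.sub (mackeySub r H t)) (mkyL1 r H σ t b) := by
  have h1 : IsLC₁ 𝓛Γ (fun γ => b (r γ)) := hb.comp_hom 𝓛 hr
  have h2 := (h1.comp_hom 𝓛Γ (𝓛Γ.continuous_comap (mackeySub r H t).subtype))
  exact h2.comp (fun f : ↥(indSpace H σ) => (f : G → V) t)

end Cochain

section Res

variable {k : Type*} [CommRing k] {G Γ : Type*} [Group G] [Group Γ] {r : Γ →* G}
  {H : Subgroup G} {V : Type*} [AddCommGroup V] [Module k V] (σ : Representation k H V) (t : G)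
  {𝓛 : Levels G} {𝓛Γ : Levels Γ} (hr : 𝓛Γ.Continuous 𝓛 r)

include hr in
lemma mky_coe_hom1 (a : ↥(smZ1 𝓛 (indRep H σ))) :
    ((shZ1 𝓛Γ (mackeySub r H t) (mackeyRep r H σ t)
      (smZ1map 𝓛Γ (mackeyMap r H σ t) (mackeyMap_equivariant r H σ t)
        (smZ1res (indRep H σ) hr a)) : ↥(smZ1 (𝓛Γ.sub (mackeySub r H t)) (mackeyRep r H σ t)))
        : ↥(mackeySub r H t) → V) = mkyL1 r H σ t (a : G → ↥(indSpace H σ)) := by
  ext δ
  show ((a : G → ↥(indSpace H σ)) (r δ) : G → V) (t * r 1) = _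
  rw [map_one, mul_one]
  rfl

include hr in
lemma mky_coe_hom2 (a : ↥(smZ2 𝓛 (indRep H σ))) :
    ((shZ2 𝓛Γ (mackeySub r H t) (mackeyRep r H σ t)
      (smZ2map 𝓛Γ (mackeyMap r H σ t) (mackeyMap_equivariant r H σ t)
        (smZ2res (indRep H σ) hr a)) : ↥(smZ2 (𝓛Γ.sub (mackeySub r H t)) (mackeyRep r H σ t)))
        : ↥(mackeySub r H t) × ↥(mackeySub r H t) → V)
      = mkyL2 r H σ t (a : G × G → ↥(indSpace H σ)) := by
  ext ⟨δ, δ'⟩
  show ((a : G × G → ↥(indSpace H σ)) (r δ, r δ') : G → V) (t * r 1) = _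
  rw [map_one, mul_one]
  rfl

/-- degree `0` -/
theorem mackeyShapiroHom0_res (x : ↥(smH0 (indRep H σ))) :
    mackeyShapiroHom0 σ t (smH0res (indRep H σ) (r := r) x)
      = smH0res σ (r := mackeyHom r H t) (smShapiro0 H σ x) := by
  apply Subtype.ext
  show ((x : ↥(indSpace H σ)) : G → V) (t * r 1) = ((x : ↥(indSpace H σ)) : G → V) 1
  rw [map_one, mul_one]
  have hx : dd0 (indRep H σ) (x : ↥(indSpace H σ)) = 0 := x.2
  have h2 := congrFun hx t
  simp only [dd0_apply, Pi.zero_apply, sub_eq_zero] at h2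
  have h3 := congrArg (fun f : ↥(indSpace H σ) => (f : G → V) 1) h2
  simpa only [indRep_apply, one_mul] using h3

/-- degree `1` -/
theorem mackeyShapiroHom1_res (x : smH1 𝓛 (indRep H σ)) :
    mackeyShapiroHom1 𝓛Γ σ t (smH1res (indRep H σ) hr x)
      = smH1res σ (mackeyHom_continuous hr t) (smShapiro1Hom 𝓛 H σ x) := by
  induction x using Submodule.Quotient.induction_on with
  | _ a =>
    show smH1π (𝓛Γ.sub (mackeySub r H t)) (mackeyRep r H σ t)
        (shZ1 𝓛Γ (mackeySub r H t) (mackeyRep r H σ t)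
          (smZ1map 𝓛Γ (mackeyMap r H σ t) (mackeyMap_equivariant r H σ t)
            (smZ1res (indRep H σ) hr a)))
      = smH1π (𝓛Γ.sub (mackeySub r H t)) (mackeyRep r H σ t)
        (smZ1res σ (mackeyHom_continuous hr t) (shZ1 𝓛 H σ a))
    rw [eq_comm, ← sub_eq_zero, ← map_sub, smH1π_eq_zero_iff]
    have ha : dd1 (indRep H σ) (a : G → ↥(indSpace H σ)) = 0 := a.2.1
    refine ⟨(((a : G → ↥(indSpace H σ)) t⁻¹ : ↥(indSpace H σ)) : G → V) t, ?_⟩
    rw [← mkyL1_dd0 r H σ t]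
    have hid := cj_identity1 (indRep H σ) t⁻¹ (a : G → ↥(indSpace H σ))
    rw [ha, cjh2_zero, add_zero] at hid
    rw [Submodule.coe_sub, mky_coe_hom1 σ t hr a]
    show _ = res1 k (mackeyHom r H t) (sh1 H σ (a : G → ↥(indSpace H σ)))
      - mkyL1 r H σ t (a : G → ↥(indSpace H σ))
    rw [← mkyL1_cj1, ← map_sub, hid]
    rfl

/-- degree `2` -/
theorem mackeyShapiroHom2_res (x : smH2 𝓛 (indRep H σ)) :
    mackeyShapiroHom2 𝓛Γ σ t (smH2res (indRep H σ) hr x)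
      = smH2res σ (mackeyHom_continuous hr t) (smShapiro2Hom 𝓛 H σ x) := by
  induction x using Submodule.Quotient.induction_on with
  | _ a =>
    show smH2π (𝓛Γ.sub (mackeySub r H t)) (mackeyRep r H σ t)
        (shZ2 𝓛Γ (mackeySub r H t) (mackeyRep r H σ t)
          (smZ2map 𝓛Γ (mackeyMap r H σ t) (mackeyMap_equivariant r H σ t)
            (smZ2res (indRep H σ) hr a)))
      = smH2π (𝓛Γ.sub (mackeySub r H t)) (mackeyRep r H σ t)
        (smZ2res σ (mackeyHom_continuous hr t) (shZ2 𝓛 H σ a))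
    rw [eq_comm, ← sub_eq_zero, ← map_sub, smH2π_eq_zero_iff, mem_smB2]
    have ha : dd2 (indRep H σ) (a : G × G → ↥(indSpace H σ)) = 0 := a.2.1
    refine ⟨mkyL1 r H σ t (cjh2 t⁻¹ (a : G × G → ↥(indSpace H σ))),
      isLC₁_mkyL1 r H σ t hr (isLC₁_cjh2 a.2.2 t⁻¹), ?_⟩
    rw [← mkyL2_dd1 r H σ t]
    have hid := cj_identity2 (indRep H σ) t⁻¹ (a : G × G → ↥(indSpace H σ))
    rw [ha, cjh3_zero, add_zero] at hid
    rw [Submodule.coe_sub, mky_coe_hom2 σ t hr a]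
    show _ = res2 k (mackeyHom r H t) (sh2 H σ (a : G × G → ↥(indSpace H σ)))
      - mkyL2 r H σ t (a : G × G → ↥(indSpace H σ))
    rw [← mkyL2_cj2, ← map_sub, hid]

end Res

/-! ### the local system of an open subgroup -/

section LocSysMackey

variable {k : Type*} [CommRing k] {G : Type*} [Group G] {𝓛 : Levels G} {ι : Type*}
  {Γ : ι → Type*} [∀ v, Group (Γ v)] (D : LocSys 𝓛 ι Γ) (H : Subgroup G) {T : ι → Type*}
  (rep : ∀ v, T v → G)

/-- The local system of the subgroup `H`: index set `Σ v, T v` (`T v` a system of representatives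
of `H \ G / r_v(Γ_v)`), local groups the Mackey subgroups `Γ_{v,t} = r_v⁻¹(t⁻¹ H t)`, mapping to
`H` by `γ ↦ t r_v(γ) t⁻¹`. -/
def LocSys.mackey : LocSys (𝓛.sub H) (Σ v, T v)
    (fun vt => ↥(mackeySub (D.r vt.1) H (rep vt.1 vt.2))) where
  lev vt := (D.lev vt.1).sub (mackeySub (D.r vt.1) H (rep vt.1 vt.2))
  r vt := mackeyHom (D.r vt.1) H (rep vt.1 vt.2)
  cont vt := mackeyHom_continuous (D.cont vt.1) (rep vt.1 vt.2)

@[simp] lemma LocSys.mackey_lev (vt : Σ v, T v) :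
    (D.mackey H rep).lev vt = (D.lev vt.1).sub (mackeySub (D.r vt.1) H (rep vt.1 vt.2)) := rfl
@[simp] lemma LocSys.mackey_r (vt : Σ v, T v) :
    (D.mackey H rep).r vt = mackeyHom (D.r vt.1) H (rep vt.1 vt.2) := rfl

variable {V : Type*} [AddCommGroup V] [Module k V] (σ : Representation k H V)
  [∀ v, Fintype (T v)] (hrep : ∀ v, IsDCReps (D.r v) H (rep v)) (hH : 𝓛.IsOpen H)

/-- `∏_v H⁰(Γ_v, Res Ind_H σ) ≃ ∏_{(v,t)} H⁰(Γ_{v,t}, σ^t)` -/
noncomputable def mackeyShapiroP0 : (∀ v, ↥(smH0 (D.rep (indRep H σ) v))) ≃ₗ[k]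
    ∀ vt : Σ v, T v, ↥(smH0 ((D.mackey H rep).rep σ vt)) :=
  (LinearEquiv.piCongrRight fun v => mackeyShapiro0 (r := D.r v) σ (hrep v)).trans
    (LinearEquiv.piCurry k (fun v (s : T v) =>
      ↥(smH0 (mackeyRep (D.r v) H σ (rep v s))))).symm

/-- `∏_v H¹(Γ_v, Res Ind_H σ) ≃ ∏_{(v,t)} H¹(Γ_{v,t}, σ^t)` -/
noncomputable def mackeyShapiroP1 : (∀ v, smH1 (D.lev v) (D.rep (indRep H σ) v)) ≃ₗ[k]
    ∀ vt : Σ v, T v, smH1 ((D.mackey H rep).lev vt) ((D.mackey H rep).rep σ vt) :=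
  (LinearEquiv.piCongrRight fun v =>
      mackeyShapiro1 (D.lev v) σ (hrep v) (D.cont v) hH).trans
    (LinearEquiv.piCurry k (fun v (s : T v) =>
      smH1 ((D.lev v).sub (mackeySub (D.r v) H (rep v s)))
        (mackeyRep (D.r v) H σ (rep v s)))).symm

/-- `∏_v H²(Γ_v, Res Ind_H σ) ≃ ∏_{(v,t)} H²(Γ_{v,t}, σ^t)` -/
noncomputable def mackeyShapiroP2 : (∀ v, smH2 (D.lev v) (D.rep (indRep H σ) v)) ≃ₗ[k]
    ∀ vt : Σ v, T v, smH2 ((D.mackey H rep).lev vt) ((D.mackey H rep).rep σ vt) :=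
  (LinearEquiv.piCongrRight fun v =>
      mackeyShapiro2 (D.lev v) σ (hrep v) (D.cont v) hH).trans
    (LinearEquiv.piCurry k (fun v (s : T v) =>
      smH2 ((D.lev v).sub (mackeySub (D.r v) H (rep v s)))
        (mackeyRep (D.r v) H σ (rep v s)))).symm

@[simp] theorem mackeyShapiroP0_apply (b : ∀ v, ↥(smH0 (D.rep (indRep H σ) v)))
    (vt : Σ v, T v) :
    mackeyShapiroP0 D H rep σ hrep b vt
      = mackeyShapiroHom0 (r := D.r vt.1) σ (rep vt.1 vt.2) (b vt.1) := by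
  obtain ⟨v, s⟩ := vt; rfl
@[simp] theorem mackeyShapiroP1_apply (b : ∀ v, smH1 (D.lev v) (D.rep (indRep H σ) v))
    (vt : Σ v, T v) :
    mackeyShapiroP1 D H rep σ hrep hH b vt
      = mackeyShapiroHom1 (D.lev vt.1) σ (rep vt.1 vt.2) (b vt.1) := by
  obtain ⟨v, s⟩ := vt; rfl
@[simp] theorem mackeyShapiroP2_apply (b : ∀ v, smH2 (D.lev v) (D.rep (indRep H σ) v))
    (vt : Σ v, T v) :
    mackeyShapiroP2 D H rep σ hrep hH b vt
      = mackeyShapiroHom2 (D.lev vt.1) σ (rep vt.1 vt.2) (b vt.1) := by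
  obtain ⟨v, s⟩ := vt; rfl

/-- Mackey–Shapiro commutes with total localisation, degree `0` -/
theorem mackeyShapiroP0_locP0 (x : ↥(smH0 (indRep H σ))) :
    mackeyShapiroP0 D H rep σ hrep (locP0 D (ρ := indRep H σ) x)
      = locP0 (D.mackey H rep) (ρ := σ) (smShapiro0 H σ x) := by
  funext vt
  rw [mackeyShapiroP0_apply]
  exact mackeyShapiroHom0_res σ (rep vt.1 vt.2) x

/-- Mackey–Shapiro commutes with total localisation, degree `1` -/
theorem mackeyShapiroP1_locP1 (x : smH1 𝓛 (indRep H σ)) :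
    mackeyShapiroP1 D H rep σ hrep hH (locP1 D (ρ := indRep H σ) x)
      = locP1 (D.mackey H rep) (ρ := σ) (smShapiro1 𝓛 σ hH x) := by
  funext vt
  rw [mackeyShapiroP1_apply]
  exact mackeyShapiroHom1_res σ (rep vt.1 vt.2) (D.cont vt.1) x

/-- Mackey–Shapiro commutes with total localisation, degree `2` -/
theorem mackeyShapiroP2_locP2 (x : smH2 𝓛 (indRep H σ)) :
    mackeyShapiroP2 D H rep σ hrep hH (locP2 D (ρ := indRep H σ) x)
      = locP2 (D.mackey H rep) (ρ := σ) (smShapiro2 𝓛 σ hH x) := by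
  funext vt
  rw [mackeyShapiroP2_apply]
  exact mackeyShapiroHom2_res σ (rep vt.1 vt.2) (D.cont vt.1) x

end LocSysMackey

end Fermat.Agent.S55
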