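import Fermat.Agent.S55.Top.Cochains

/-!
# S55, layer SM, file 1: homogeneous form of low-degree inhomogeneous cochains

For an inhomogeneous cochain `f : Γⁿ → V` its homogeneous form is
`homₙ f (x₀, …, xₙ) = ρ x₀ (f (x₀⁻¹ x₁, …, xₙ₋₁⁻¹ xₙ))`.  The differentials `dd0 … dd3` become the
alternating sums of faces.  This is only a computational device for the Shapiro layer.
-/

set_option autoImplicit false

namespace Fermat.Agent.S55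

variable {k : Type*} [CommRing k] {Γ : Type*} [Group Γ]
  {V : Type*} [AddCommGroup V] [Module k V] (ρ : Representation k Γ V)

/-- homogeneous form of a `0`-cochain -/
def hom0 (m : V) (x₀ : Γ) : V := ρ x₀ m
/-- homogeneous form of a `1`-cochain -/
def hom1 (f : Γ → V) (x₀ x₁ : Γ) : V := ρ x₀ (f (x₀⁻¹ * x₁))
/-- homogeneous form of a `2`-cochain -/
def hom2 (f : Γ × Γ → V) (x₀ x₁ x₂ : Γ) : V := ρ x₀ (f (x₀⁻¹ * x₁, x₁⁻¹ * x₂))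
/-- homogeneous form of a `3`-cochain -/
def hom3 (f : Γ × Γ × Γ → V) (x₀ x₁ x₂ x₃ : Γ) : V :=
  ρ x₀ (f (x₀⁻¹ * x₁, x₁⁻¹ * x₂, x₂⁻¹ * x₃))
/-- homogeneous form of a `4`-cochain -/
def hom4 (f : Γ × Γ × Γ × Γ → V) (x₀ x₁ x₂ x₃ x₄ : Γ) : V :=
  ρ x₀ (f (x₀⁻¹ * x₁, x₁⁻¹ * x₂, x₂⁻¹ * x₃, x₃⁻¹ * x₄))

lemma hom0_smul (m : V) (γ x₀ : Γ) : hom0 ρ m (γ * x₀) = ρ γ (hom0 ρ m x₀) := by
  simp only [hom0, map_mul, Module.End.mul_apply]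

lemma hom1_smul (f : Γ → V) (γ x₀ x₁ : Γ) :
    hom1 ρ f (γ * x₀) (γ * x₁) = ρ γ (hom1 ρ f x₀ x₁) := by
  simp only [hom1, map_mul, Module.End.mul_apply, mul_inv_rev, mul_assoc, inv_mul_cancel_left]

lemma hom2_smul (f : Γ × Γ → V) (γ x₀ x₁ x₂ : Γ) :
    hom2 ρ f (γ * x₀) (γ * x₁) (γ * x₂) = ρ γ (hom2 ρ f x₀ x₁ x₂) := by
  simp only [hom2, map_mul, Module.End.mul_apply, mul_inv_rev, mul_assoc, inv_mul_cancel_left]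

lemma hom3_smul (f : Γ × Γ × Γ → V) (γ x₀ x₁ x₂ x₃ : Γ) :
    hom3 ρ f (γ * x₀) (γ * x₁) (γ * x₂) (γ * x₃) = ρ γ (hom3 ρ f x₀ x₁ x₂ x₃) := by
  simp only [hom3, map_mul, Module.End.mul_apply, mul_inv_rev, mul_assoc, inv_mul_cancel_left]

lemma hom4_smul (f : Γ × Γ × Γ × Γ → V) (γ x₀ x₁ x₂ x₃ x₄ : Γ) :
    hom4 ρ f (γ * x₀) (γ * x₁) (γ * x₂) (γ * x₃) (γ * x₄) = ρ γ (hom4 ρ f x₀ x₁ x₂ x₃ x₄) := by
  simp only [hom4, map_mul, Module.End.mul_apply, mul_inv_rev, mul_assoc, inv_mul_cancel_left]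

lemma hom1_one (f : Γ → V) (g : Γ) : hom1 ρ f 1 g = f g := by
  simp only [hom1, map_one, Module.End.one_apply, inv_one, one_mul]

lemma hom2_one (f : Γ × Γ → V) (g₁ g₂ : Γ) : hom2 ρ f 1 g₁ (g₁ * g₂) = f (g₁, g₂) := by
  simp only [hom2, map_one, Module.End.one_apply, inv_one, one_mul, inv_mul_cancel_left]

lemma hom3_one (f : Γ × Γ × Γ → V) (g₁ g₂ g₃ : Γ) :
    hom3 ρ f 1 g₁ (g₁ * g₂) (g₁ * g₂ * g₃) = f (g₁, g₂, g₃) := by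
  simp only [hom3, map_one, Module.End.one_apply, inv_one, one_mul, inv_mul_cancel_left, mul_assoc,
    mul_inv_rev]

lemma hom4_one (f : Γ × Γ × Γ × Γ → V) (g₁ g₂ g₃ g₄ : Γ) :
    hom4 ρ f 1 g₁ (g₁ * g₂) (g₁ * g₂ * g₃) (g₁ * g₂ * g₃ * g₄) = f (g₁, g₂, g₃, g₄) := by
  simp only [hom4, map_one, Module.End.one_apply, inv_one, one_mul, inv_mul_cancel_left, mul_assoc,
    mul_inv_rev]

lemma hom1_dd0 (m : V) (x₀ x₁ : Γ) :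
    hom1 ρ (dd0 ρ m) x₀ x₁ = hom0 ρ m x₁ - hom0 ρ m x₀ := by
  simp only [hom1, hom0, dd0_apply, map_sub, ← Module.End.mul_apply, ← map_mul,
    mul_inv_cancel_left]

lemma hom2_dd1 (f : Γ → V) (x₀ x₁ x₂ : Γ) :
    hom2 ρ (dd1 ρ f) x₀ x₁ x₂ = hom1 ρ f x₁ x₂ - hom1 ρ f x₀ x₂ + hom1 ρ f x₀ x₁ := by
  simp only [hom2, hom1, dd1_apply, map_sub, map_add, ← Module.End.mul_apply, ← map_mul,
    mul_inv_cancel_left, mul_assoc]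

lemma hom3_dd2 (f : Γ × Γ → V) (x₀ x₁ x₂ x₃ : Γ) :
    hom3 ρ (dd2 ρ f) x₀ x₁ x₂ x₃ =
      hom2 ρ f x₁ x₂ x₃ - hom2 ρ f x₀ x₂ x₃ + hom2 ρ f x₀ x₁ x₃ - hom2 ρ f x₀ x₁ x₂ := by
  simp only [hom3, hom2, dd2_apply, map_sub, map_add, ← Module.End.mul_apply, ← map_mul,
    mul_inv_cancel_left, mul_assoc]

lemma hom4_dd3 (f : Γ × Γ × Γ → V) (x₀ x₁ x₂ x₃ x₄ : Γ) :
    hom4 ρ (dd3 ρ f) x₀ x₁ x₂ x₃ x₄ =
      hom3 ρ f x₁ x₂ x₃ x₄ - hom3 ρ f x₀ x₂ x₃ x₄ + hom3 ρ f x₀ x₁ x₃ x₄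
        - hom3 ρ f x₀ x₁ x₂ x₄ + hom3 ρ f x₀ x₁ x₂ x₃ := by
  simp only [hom4, hom3, dd3_apply, map_sub, map_add, ← Module.End.mul_apply, ← map_mul,
    mul_inv_cancel_left, mul_assoc]

end Fermat.Agent.S55
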