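import Fermat.Agent.S55.SM.IndFunctor
import Fermat.Agent.S55.Top.SmoothSpec

/-!
# S55, layer SM, file 7: the Mackey decomposition of `Res_r Ind_H^G σ` (module level)

`r : Γ →* G` a homomorphism, `H ≤ G`, `σ` a representation of `H`, `t : G`.

* `mackeySub r H t = {γ | t r(γ) t⁻¹ ∈ H}`, `mackeyHom r H t : mackeySub r H t →* H`,
  `γ ↦ t r(γ) t⁻¹`;
* `mackeyMap r H σ t : Ind_H^G σ → Ind_{Γ_t}^Γ (σ ∘ mackeyHom)`, `f ↦ (γ ↦ f (t r(γ)))`,
  `Γ`-equivariant;
* `IsDCReps H r rep`: `rep : T → G` is a system of representatives of `H \ G / r(Γ)`;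
* `mackeyExt … t` extension by zero off the double coset `H t r(Γ)`, `Γ`-equivariant, with
  `mackeyMap t' ∘ mackeyExt t = δ_{t t'}` and `Σ_t mackeyExt t ∘ mackeyMap t = id`.

Helper lemmas are prefixed `mky_`.
-/

set_option autoImplicit false

namespace Fermat.Agent.S55

section Module

variable {k : Type*} [CommRing k] {G Γ : Type*} [Group G] [Group Γ]
  {V : Type*} [AddCommGroup V] [Module k V]
  (r : Γ →* G) (H : Subgroup G) (σ : Representation k H V) (t : G)

/-- `Γ_t = r⁻¹(t⁻¹ H t)` -/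
def mackeySub : Subgroup Γ := (H.comap (MulAut.conj t).toMonoidHom).comap r

variable {r H t} in
lemma mem_mackeySub {γ : Γ} : γ ∈ mackeySub r H t ↔ t * r γ * t⁻¹ ∈ H := by
  simp only [mackeySub, Subgroup.mem_comap, MulEquiv.toMonoidHom_eq_coe, MonoidHom.coe_coe,
    MulAut.conj_apply]

/-- `Γ_t → H`, `γ ↦ t r(γ) t⁻¹` -/
def mackeyHom : ↥(mackeySub r H t) →* ↥H where
  toFun γ := ⟨t * r γ * t⁻¹, mem_mackeySub.1 γ.2⟩
  map_one' := by
    apply Subtype.ext
    simp only [Subgroup.coe_one, map_one, mul_one, mul_inv_cancel]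
  map_mul' γ γ' := by
    apply Subtype.ext
    simp only [Subgroup.coe_mul, map_mul, mul_assoc, inv_mul_cancel_left]

@[simp] lemma coe_mackeyHom (γ : ↥(mackeySub r H t)) :
    ((mackeyHom r H t γ : ↥H) : G) = t * r γ * t⁻¹ := rfl

/-- the conjugated representation `σ^t` of `Γ_t` -/
abbrev mackeyRep : Representation k ↥(mackeySub r H t) V := σ.comp (mackeyHom r H t)

/-- `f ↦ (γ ↦ f (t r(γ)))` -/
def mackeyMap : ↥(indSpace H σ) →ₗ[k] ↥(indSpace (mackeySub r H t) (mackeyRep r H σ t)) where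
  toFun f := ⟨fun γ => (f : G → V) (t * r γ), fun δ γ => by
    show (f : G → V) (t * r ((δ : Γ) * γ)) = σ (mackeyHom r H t δ) ((f : G → V) (t * r γ))
    rw [← indSpace_apply_mul f (mackeyHom r H t δ) (t * r γ)]
    simp only [coe_mackeyHom, map_mul, mul_assoc, inv_mul_cancel_left]⟩
  map_add' _ _ := rfl
  map_smul' _ _ := rfl

@[simp] lemma mackeyMap_apply (f : ↥(indSpace H σ)) (γ : Γ) :
    ((mackeyMap r H σ t f : ↥(indSpace (mackeySub r H t) (mackeyRep r H σ t))) : Γ → V) γ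
      = (f : G → V) (t * r γ) := rfl

theorem mackeyMap_equivariant :
    IsEquivariant ((indRep H σ).comp r) (indRep (mackeySub r H t) (mackeyRep r H σ t))
      (mackeyMap r H σ t) := by
  intro γ f
  ext x
  simp only [mackeyMap_apply, indRep_apply, MonoidHom.coe_comp, Function.comp_apply, map_mul,
    mul_assoc]

/-! ### double coset representatives and extension by zero -/

/-- `rep : T → G` is a system of representatives of the double cosets `H \ G / r(Γ)` -/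
def IsDCReps {T : Type*} (rep : T → G) : Prop :=
  ∀ g : G, ∃! t : T, ∃ h : ↥H, ∃ γ : Γ, g = (h : G) * rep t * r γ

variable {T : Type*} (rep : T → G)

/-- membership in the double coset `H t r(Γ)` -/
def mackeyCoset (g : G) : Prop := ∃ h : ↥H, ∃ γ : Γ, g = (h : G) * t * r γ

variable {r H t} in
lemma mackeyCoset_mul_left {g : G} (h₀ : ↥H) :
    mackeyCoset r H t ((h₀ : G) * g) ↔ mackeyCoset r H t g := by
  constructor
  · rintro ⟨h, γ, hg⟩
    refine ⟨h₀⁻¹ * h, γ, ?_⟩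
    rw [Subgroup.coe_mul, Subgroup.coe_inv, mul_assoc, mul_assoc, ← mul_assoc (h : G), ← hg,
      inv_mul_cancel_left]
  · rintro ⟨h, γ, hg⟩
    exact ⟨h₀ * h, γ, by rw [hg, Subgroup.coe_mul]; simp only [mul_assoc]⟩

variable {r H t} in
lemma mackeyCoset_mul_right {g : G} (γ₀ : Γ) :
    mackeyCoset r H t (g * r γ₀) ↔ mackeyCoset r H t g := by
  constructor
  · rintro ⟨h, γ, hg⟩
    refine ⟨h, γ * γ₀⁻¹, ?_⟩
    rw [map_mul, ← mul_assoc, ← hg, map_inv, mul_inv_cancel_right]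
  · rintro ⟨h, γ, hg⟩
    exact ⟨h, γ * γ₀, by rw [hg, map_mul]; simp only [mul_assoc]⟩

open Classical in
/-- extension by zero off the double coset `H t r(Γ)`: `(h t r(γ)) ↦ σ h (φ γ)` -/
noncomputable def mackeyExtFun
    (φ : ↥(indSpace (mackeySub r H t) (mackeyRep r H σ t))) (g : G) : V :=
  if hg : mackeyCoset r H t g then σ hg.choose ((φ : Γ → V) hg.choose_spec.choose) else 0

lemma mackeyExtFun_eq (φ : ↥(indSpace (mackeySub r H t) (mackeyRep r H σ t)))
    (h : ↥H) (γ : Γ) :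
    mackeyExtFun r H σ t φ ((h : G) * t * r γ) = σ h ((φ : Γ → V) γ) := by
  have hg : mackeyCoset r H t ((h : G) * t * r γ) := ⟨h, γ, rfl⟩
  rw [mackeyExtFun, dif_pos hg]
  set h' := hg.choose with hh'
  set γ' := hg.choose_spec.choose with hγ'
  have heq : (h : G) * t * r γ = (h' : G) * t * r γ' := hg.choose_spec.choose_spec
  -- `δ = γ' γ⁻¹ ∈ Γ_t` with `t r(δ) t⁻¹ = h'⁻¹ h`
  have hδ : t * r (γ' * γ⁻¹) * t⁻¹ = ((h'⁻¹ * h : ↥H) : G) := by
    have h1 : t * r γ' = (h' : G)⁻¹ * ((h : G) * t * r γ) := by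
      rw [heq]; simp only [mul_assoc, inv_mul_cancel_left]
    rw [map_mul, ← mul_assoc, h1, map_inv, Subgroup.coe_mul, Subgroup.coe_inv]
    simp only [mul_assoc, mul_inv_cancel, mul_one]
  have hmem : γ' * γ⁻¹ ∈ mackeySub r H t := by
    rw [mem_mackeySub, hδ]; exact (h'⁻¹ * h).2
  have hhom : mackeyHom r H t ⟨γ' * γ⁻¹, hmem⟩ = h'⁻¹ * h := Subtype.ext hδ
  have hφ := indSpace_apply_mul φ ⟨γ' * γ⁻¹, hmem⟩ γ
  simp only [inv_mul_cancel_right] at hφ
  rw [hφ]
  show σ h' (σ (mackeyHom r H t ⟨γ' * γ⁻¹, hmem⟩) ((φ : Γ → V) γ)) = _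
  rw [hhom, ← Module.End.mul_apply, ← map_mul, mul_inv_cancel_left]

lemma mackeyExtFun_of_not (φ : ↥(indSpace (mackeySub r H t) (mackeyRep r H σ t)))
    {g : G} (hg : ¬ mackeyCoset r H t g) : mackeyExtFun r H σ t φ g = 0 := by
  rw [mackeyExtFun, dif_neg hg]

/-- extension by zero off the double coset `H t r(Γ)` -/
noncomputable def mackeyExt :
    ↥(indSpace (mackeySub r H t) (mackeyRep r H σ t)) →ₗ[k] ↥(indSpace H σ) where
  toFun φ := ⟨mackeyExtFun r H σ t φ, fun h₀ g => by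
    by_cases hg : mackeyCoset r H t g
    · obtain ⟨h, γ, rfl⟩ := hg
      have : (h₀ : G) * ((h : G) * t * r γ) = ((h₀ * h : ↥H) : G) * t * r γ := by
        rw [Subgroup.coe_mul]; simp only [mul_assoc]
      rw [this, mackeyExtFun_eq, mackeyExtFun_eq, map_mul, Module.End.mul_apply]
    · rw [mackeyExtFun_of_not r H σ t φ hg,
        mackeyExtFun_of_not r H σ t φ (fun h => hg ((mackeyCoset_mul_left h₀).1 h)), map_zero]⟩
  map_add' φ φ' := by
    ext g
    by_cases hg : mackeyCoset r H t g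
    · obtain ⟨h, γ, rfl⟩ := hg
      show mackeyExtFun r H σ t (φ + φ') _ = mackeyExtFun r H σ t φ _ + mackeyExtFun r H σ t φ' _
      rw [mackeyExtFun_eq, mackeyExtFun_eq, mackeyExtFun_eq, ← map_add]; rfl
    · show mackeyExtFun r H σ t (φ + φ') _ = mackeyExtFun r H σ t φ _ + mackeyExtFun r H σ t φ' _
      rw [mackeyExtFun_of_not _ _ _ _ _ hg, mackeyExtFun_of_not _ _ _ _ _ hg,
        mackeyExtFun_of_not _ _ _ _ _ hg, add_zero]
  map_smul' c φ := by
    ext g
    by_cases hg : mackeyCoset r H t g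
    · obtain ⟨h, γ, rfl⟩ := hg
      show mackeyExtFun r H σ t (c • φ) _ = c • mackeyExtFun r H σ t φ _
      rw [mackeyExtFun_eq, mackeyExtFun_eq, ← map_smul]; rfl
    · show mackeyExtFun r H σ t (c • φ) _ = c • mackeyExtFun r H σ t φ _
      rw [mackeyExtFun_of_not _ _ _ _ _ hg, mackeyExtFun_of_not _ _ _ _ _ hg, smul_zero]

lemma mackeyExt_apply_eq (φ : ↥(indSpace (mackeySub r H t) (mackeyRep r H σ t)))
    (h : ↥H) (γ : Γ) :
    ((mackeyExt r H σ t φ : ↥(indSpace H σ)) : G → V) ((h : G) * t * r γ)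
      = σ h ((φ : Γ → V) γ) := mackeyExtFun_eq r H σ t φ h γ

lemma mackeyExt_apply_rep (φ : ↥(indSpace (mackeySub r H t) (mackeyRep r H σ t))) (γ : Γ) :
    ((mackeyExt r H σ t φ : ↥(indSpace H σ)) : G → V) (t * r γ) = (φ : Γ → V) γ := by
  have := mackeyExt_apply_eq r H σ t φ 1 γ
  simpa only [Subgroup.coe_one, one_mul, map_one, Module.End.one_apply] using this

lemma mackeyExt_apply_of_not (φ : ↥(indSpace (mackeySub r H t) (mackeyRep r H σ t)))
    {g : G} (hg : ¬ mackeyCoset r H t g) :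
    ((mackeyExt r H σ t φ : ↥(indSpace H σ)) : G → V) g = 0 :=
  mackeyExtFun_of_not r H σ t φ hg

theorem mackeyExt_equivariant :
    IsEquivariant (indRep (mackeySub r H t) (mackeyRep r H σ t)) ((indRep H σ).comp r)
      (mackeyExt r H σ t) := by
  intro γ₀ φ
  ext g
  show ((mackeyExt r H σ t _ : ↥(indSpace H σ)) : G → V) g
    = ((mackeyExt r H σ t φ : ↥(indSpace H σ)) : G → V) (g * r γ₀)
  by_cases hg : mackeyCoset r H t g
  · obtain ⟨h, γ, rfl⟩ := hg
    have : (h : G) * t * r γ * r γ₀ = (h : G) * t * r (γ * γ₀) := by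
      rw [map_mul]; simp only [mul_assoc]
    rw [this, mackeyExt_apply_eq, mackeyExt_apply_eq, indRep_apply]
  · rw [mackeyExt_apply_of_not r H σ t _ hg,
      mackeyExt_apply_of_not r H σ t _ (fun h => hg ((mackeyCoset_mul_right γ₀).1 h))]

/-- `M_t ∘ N_t = id` -/
theorem mackeyMap_mackeyExt (φ : ↥(indSpace (mackeySub r H t) (mackeyRep r H σ t))) :
    mackeyMap r H σ t (mackeyExt r H σ t φ) = φ := by
  ext γ
  rw [mackeyMap_apply, mackeyExt_apply_rep]

variable {r H rep} in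
/-- `M_{t'} ∘ N_t = 0` for `t ≠ t'` -/
theorem mackeyMap_mackeyExt_of_ne (hrep : IsDCReps r H rep) {s s' : T} (hne : s ≠ s')
    (φ : ↥(indSpace (mackeySub r H (rep s)) (mackeyRep r H σ (rep s)))) :
    mackeyMap r H σ (rep s') (mackeyExt r H σ (rep s) φ) = 0 := by
  ext γ
  rw [mackeyMap_apply]
  refine mackeyExt_apply_of_not r H σ (rep s) φ ?_
  rintro ⟨h, γ', hg⟩
  apply hne
  obtain ⟨t₀, -, huniq⟩ := hrep (rep s' * r γ)
  rw [huniq s ⟨h, γ', hg⟩, huniq s' ⟨1, γ, by rw [Subgroup.coe_one, one_mul]⟩]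

variable {r H rep} in
/-- `Σ_t N_t ∘ M_t = id` -/
theorem sum_mackeyExt_mackeyMap [Fintype T] (hrep : IsDCReps r H rep) (f : ↥(indSpace H σ)) :
    ∑ s : T, mackeyExt r H σ (rep s) (mackeyMap r H σ (rep s) f) = f := by
  classical
  ext g
  obtain ⟨t₀, ⟨h, γ, hg⟩, huniq⟩ := hrep g
  rw [Submodule.coe_sum, Finset.sum_apply, Finset.sum_eq_single t₀]
  · rw [hg, mackeyExt_apply_eq, mackeyMap_apply, ← indSpace_apply_mul, mul_assoc]
  · intro s _ hs
    refine mackeyExt_apply_of_not r H σ (rep s) _ ?_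
    rintro ⟨h', γ', hg'⟩
    exact hs (huniq s ⟨h', γ', hg'⟩)
  · intro h0
    exact absurd (Finset.mem_univ t₀) h0

end Module

end Fermat.Agent.S55
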