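import Fermat.Agent.S55.SM.Mackey
import Fermat.Agent.S55.SM.ShapiroIso

/-!
# S55, layer SM, file 8: the Mackey–Shapiro isomorphism on smooth cohomology

`smHⁿ(Γ, Res_r Ind_H^G σ) ≃ ∏_{t ∈ H\G/r(Γ)} smHⁿ(Γ_t, σ^t)`, `n = 0,1,2,3`, where
`Γ_t = mackeySub r H t`, `σ^t = σ ∘ mackeyHom r H t`; on representatives
`[F] ↦ ([δ⃗ ↦ F(δ⃗)(t)])_t`.

Helper lemmas are prefixed `mky_`.
-/

set_option autoImplicit false

namespace Fermat.Agent.S55

/-! ### levels -/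

section Lev

variable {G Γ : Type*} [Group G] [Group Γ] {𝓛 : Levels G} {𝓛Γ : Levels Γ}
  {r : Γ →* G} (hr : 𝓛Γ.Continuous 𝓛 r) {H : Subgroup G}

include hr in
/-- the Mackey subgroups of an open subgroup are open -/
theorem mackeySub_isOpen (hH : 𝓛.IsOpen H) (t : G) : 𝓛Γ.IsOpen (mackeySub r H t) := by
  obtain ⟨U, hU, hUH⟩ := hH
  obtain ⟨W, hW, hWn, hWU⟩ := 𝓛.exists_normal_le U hU
  obtain ⟨V, hV, hVW⟩ := hr W hW
  refine ⟨V, hV, fun γ hγ => ?_⟩
  rw [mem_mackeySub]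
  exact hUH (hWU (hWn.conj_mem _ (hVW hγ) t))

include hr in
/-- `γ ↦ t r(γ) t⁻¹` is continuous -/
theorem mackeyHom_continuous (t : G) :
    (𝓛Γ.sub (mackeySub r H t)).Continuous (𝓛.sub H) (mackeyHom r H t) := by
  rintro _ ⟨U, hU, rfl⟩
  obtain ⟨W, hW, hWn, hWU⟩ := 𝓛.exists_normal_le U hU
  obtain ⟨V, hV, hVW⟩ := hr W hW
  refine ⟨V.comap (mackeySub r H t).subtype, ⟨V, hV, rfl⟩, fun γ hγ => ?_⟩
  rw [Subgroup.mem_comap, Subgroup.mem_comap, Subgroup.coe_subtype, coe_mackeyHom]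
  exact hWU (hWn.conj_mem _ (hVW hγ) t)

end Lev

/-! ### functoriality of `smHⁿ` in the coefficients: the identities we need -/

section Functor

variable {k : Type*} [CommRing k] {G : Type*} [Group G] (𝓛 : Levels G)
  {V V' V'' : Type*} [AddCommGroup V] [Module k V] [AddCommGroup V'] [Module k V']
  [AddCommGroup V''] [Module k V'']
  {ρ : Representation k G V} {ρ' : Representation k G V'} {ρ'' : Representation k G V''}

theorem mky_smH0map_comp {φ : V →ₗ[k] V'} {ψ : V' →ₗ[k] V''} (hφ : IsEquivariant ρ ρ' φ)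
    (hψ : IsEquivariant ρ' ρ'' ψ) {χ : V →ₗ[k] V''} (hχ : IsEquivariant ρ ρ'' χ)
    (h : ∀ v, ψ (φ v) = χ v) (x : ↥(smH0 ρ)) :
    smH0map ψ hψ (smH0map φ hφ x) = smH0map χ hχ x :=
  Subtype.ext (h x)

theorem mky_smH1map_comp {φ : V →ₗ[k] V'} {ψ : V' →ₗ[k] V''} (hφ : IsEquivariant ρ ρ' φ)
    (hψ : IsEquivariant ρ' ρ'' ψ) {χ : V →ₗ[k] V''} (hχ : IsEquivariant ρ ρ'' χ)
    (h : ∀ v, ψ (φ v) = χ v) (x : smH1 𝓛 ρ) :
    smH1map 𝓛 ψ hψ (smH1map 𝓛 φ hφ x) = smH1map 𝓛 χ hχ x := by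
  induction x using Submodule.Quotient.induction_on with
  | _ a =>
    show smH1π 𝓛 ρ'' _ = smH1π 𝓛 ρ'' _
    congr 1
    exact Subtype.ext (funext fun g => h _)

theorem mky_smH2map_comp {φ : V →ₗ[k] V'} {ψ : V' →ₗ[k] V''} (hφ : IsEquivariant ρ ρ' φ)
    (hψ : IsEquivariant ρ' ρ'' ψ) {χ : V →ₗ[k] V''} (hχ : IsEquivariant ρ ρ'' χ)
    (h : ∀ v, ψ (φ v) = χ v) (x : smH2 𝓛 ρ) :
    smH2map 𝓛 ψ hψ (smH2map 𝓛 φ hφ x) = smH2map 𝓛 χ hχ x := by
  induction x using Submodule.Quotient.induction_on with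
  | _ a =>
    show smH2π 𝓛 ρ'' _ = smH2π 𝓛 ρ'' _
    congr 1
    exact Subtype.ext (funext fun g => h _)

theorem mky_smH3map_comp {φ : V →ₗ[k] V'} {ψ : V' →ₗ[k] V''} (hφ : IsEquivariant ρ ρ' φ)
    (hψ : IsEquivariant ρ' ρ'' ψ) {χ : V →ₗ[k] V''} (hχ : IsEquivariant ρ ρ'' χ)
    (h : ∀ v, ψ (φ v) = χ v) (x : smH3 𝓛 ρ) :
    smH3map 𝓛 ψ hψ (smH3map 𝓛 φ hφ x) = smH3map 𝓛 χ hχ x := by
  induction x using Submodule.Quotient.induction_on with
  | _ a =>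
    show smH3π 𝓛 ρ'' _ = smH3π 𝓛 ρ'' _
    congr 1
    exact Subtype.ext (funext fun g => h _)

theorem mky_smH0map_id {φ : V →ₗ[k] V} (hφ : IsEquivariant ρ ρ φ) (h : ∀ v, φ v = v)
    (x : ↥(smH0 ρ)) : smH0map φ hφ x = x :=
  Subtype.ext (h x)

theorem mky_smH1map_id {φ : V →ₗ[k] V} (hφ : IsEquivariant ρ ρ φ) (h : ∀ v, φ v = v)
    (x : smH1 𝓛 ρ) : smH1map 𝓛 φ hφ x = x := by
  induction x using Submodule.Quotient.induction_on with
  | _ a =>
    show smH1π 𝓛 ρ _ = smH1π 𝓛 ρ _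
    congr 1
    exact Subtype.ext (funext fun g => h _)

theorem mky_smH2map_id {φ : V →ₗ[k] V} (hφ : IsEquivariant ρ ρ φ) (h : ∀ v, φ v = v)
    (x : smH2 𝓛 ρ) : smH2map 𝓛 φ hφ x = x := by
  induction x using Submodule.Quotient.induction_on with
  | _ a =>
    show smH2π 𝓛 ρ _ = smH2π 𝓛 ρ _
    congr 1
    exact Subtype.ext (funext fun g => h _)

theorem mky_smH3map_id {φ : V →ₗ[k] V} (hφ : IsEquivariant ρ ρ φ) (h : ∀ v, φ v = v)
    (x : smH3 𝓛 ρ) : smH3map 𝓛 φ hφ x = x := by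
  induction x using Submodule.Quotient.induction_on with
  | _ a =>
    show smH3π 𝓛 ρ _ = smH3π 𝓛 ρ _
    congr 1
    exact Subtype.ext (funext fun g => h _)

theorem mky_smH0map_zero {φ : V →ₗ[k] V'} (hφ : IsEquivariant ρ ρ' φ) (h : ∀ v, φ v = 0)
    (x : ↥(smH0 ρ)) : smH0map φ hφ x = 0 :=
  Subtype.ext (h x)

theorem mky_smH1map_zero {φ : V →ₗ[k] V'} (hφ : IsEquivariant ρ ρ' φ) (h : ∀ v, φ v = 0)
    (x : smH1 𝓛 ρ) : smH1map 𝓛 φ hφ x = 0 := by
  induction x using Submodule.Quotient.induction_on with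
  | _ a =>
    rw [← map_zero (smH1π 𝓛 ρ')]
    show smH1π 𝓛 ρ' _ = smH1π 𝓛 ρ' _
    congr 1
    exact Subtype.ext (funext fun g => h _)

theorem mky_smH2map_zero {φ : V →ₗ[k] V'} (hφ : IsEquivariant ρ ρ' φ) (h : ∀ v, φ v = 0)
    (x : smH2 𝓛 ρ) : smH2map 𝓛 φ hφ x = 0 := by
  induction x using Submodule.Quotient.induction_on with
  | _ a =>
    rw [← map_zero (smH2π 𝓛 ρ')]
    show smH2π 𝓛 ρ' _ = smH2π 𝓛 ρ' _
    congr 1
    exact Subtype.ext (funext fun g => h _)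

theorem mky_smH3map_zero {φ : V →ₗ[k] V'} (hφ : IsEquivariant ρ ρ' φ) (h : ∀ v, φ v = 0)
    (x : smH3 𝓛 ρ) : smH3map 𝓛 φ hφ x = 0 := by
  induction x using Submodule.Quotient.induction_on with
  | _ a =>
    rw [← map_zero (smH3π 𝓛 ρ')]
    show smH3π 𝓛 ρ' _ = smH3π 𝓛 ρ' _
    congr 1
    exact Subtype.ext (funext fun g => h _)

variable {T : Type*} [Fintype T]

theorem mky_smH0map_sum {φ : T → (V →ₗ[k] V)} (hφ : ∀ s, IsEquivariant ρ ρ (φ s))
    (h : ∀ v, ∑ s, φ s v = v) (x : ↥(smH0 ρ)) : ∑ s, smH0map (φ s) (hφ s) x = x := by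
  apply Subtype.ext
  rw [Submodule.coe_sum]
  exact h x

theorem mky_smH1map_sum {φ : T → (V →ₗ[k] V)} (hφ : ∀ s, IsEquivariant ρ ρ (φ s))
    (h : ∀ v, ∑ s, φ s v = v) (x : smH1 𝓛 ρ) : ∑ s, smH1map 𝓛 (φ s) (hφ s) x = x := by
  induction x using Submodule.Quotient.induction_on with
  | _ a =>
    show ∑ s, smH1π 𝓛 ρ (smZ1map 𝓛 (φ s) (hφ s) a) = smH1π 𝓛 ρ a
    rw [← map_sum]
    congr 1
    apply Subtype.ext
    rw [Submodule.coe_sum]
    funext g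
    rw [Finset.sum_apply]
    exact h _

theorem mky_smH2map_sum {φ : T → (V →ₗ[k] V)} (hφ : ∀ s, IsEquivariant ρ ρ (φ s))
    (h : ∀ v, ∑ s, φ s v = v) (x : smH2 𝓛 ρ) : ∑ s, smH2map 𝓛 (φ s) (hφ s) x = x := by
  induction x using Submodule.Quotient.induction_on with
  | _ a =>
    show ∑ s, smH2π 𝓛 ρ (smZ2map 𝓛 (φ s) (hφ s) a) = smH2π 𝓛 ρ a
    rw [← map_sum]
    congr 1
    apply Subtype.ext
    rw [Submodule.coe_sum]
    funext g
    rw [Finset.sum_apply]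
    exact h _

theorem mky_smH3map_sum {φ : T → (V →ₗ[k] V)} (hφ : ∀ s, IsEquivariant ρ ρ (φ s))
    (h : ∀ v, ∑ s, φ s v = v) (x : smH3 𝓛 ρ) : ∑ s, smH3map 𝓛 (φ s) (hφ s) x = x := by
  induction x using Submodule.Quotient.induction_on with
  | _ a =>
    show ∑ s, smH3π 𝓛 ρ (smZ3map 𝓛 (φ s) (hφ s) a) = smH3π 𝓛 ρ a
    rw [← map_sum]
    congr 1
    apply Subtype.ext
    rw [Submodule.coe_sum]
    funext g
    rw [Finset.sum_apply]
    exact h _

end Functor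

/-! ### a finite biproduct decomposition is a linear equivalence -/

section Biprod

variable {k : Type*} [CommRing k] {T : Type*} [Fintype T] [DecidableEq T]
  {X : Type*} [AddCommGroup X] [Module k X] {Y : T → Type*} [∀ s, AddCommGroup (Y s)]
  [∀ s, Module k (Y s)]

/-- maps `m s : X → Y s`, `n s : Y s → X` with `m s ∘ n s = id`, `m s' ∘ n s = 0` (`s ≠ s'`),
`Σ_s n s ∘ m s = id` identify `X` with `∏_s Y s` -/
def mky_biprodEquiv (m : ∀ s, X →ₗ[k] Y s) (n : ∀ s, Y s →ₗ[k] X)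
    (h₁ : ∀ s y, m s (n s y) = y) (h₂ : ∀ s s', s ≠ s' → ∀ y, m s' (n s y) = 0)
    (h₃ : ∀ x, ∑ s, n s (m s x) = x) : X ≃ₗ[k] ∀ s, Y s where
  toFun x s := m s x
  map_add' x x' := by ext s; simp only [map_add, Pi.add_apply]
  map_smul' c x := by ext s; simp only [map_smul, Pi.smul_apply, RingHom.id_apply]
  invFun y := ∑ s, n s (y s)
  left_inv x := h₃ x
  right_inv y := by
    ext s'
    show m s' (∑ s, n s (y s)) = y s'
    rw [map_sum, Finset.sum_eq_single s']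
    · exact h₁ s' (y s')
    · intro s _ hs
      exact h₂ s s' hs (y s)
    · intro h0
      exact absurd (Finset.mem_univ s') h0

@[simp] theorem mky_biprodEquiv_apply (m : ∀ s, X →ₗ[k] Y s) (n : ∀ s, Y s →ₗ[k] X)
    (h₁ : ∀ s y, m s (n s y) = y) (h₂ : ∀ s s', s ≠ s' → ∀ y, m s' (n s y) = 0)
    (h₃ : ∀ x, ∑ s, n s (m s x) = x) (x : X) (s : T) :
    mky_biprodEquiv m n h₁ h₂ h₃ x s = m s x := rfl

theorem mky_biprodEquiv_symm_apply (m : ∀ s, X →ₗ[k] Y s) (n : ∀ s, Y s →ₗ[k] X)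
    (h₁ : ∀ s y, m s (n s y) = y) (h₂ : ∀ s s', s ≠ s' → ∀ y, m s' (n s y) = 0)
    (h₃ : ∀ x, ∑ s, n s (m s x) = x) (y : ∀ s, Y s) :
    (mky_biprodEquiv m n h₁ h₂ h₃).symm y = ∑ s, n s (y s) := rfl

end Biprod

/-! ### the Mackey decomposition on cohomology -/

section MackeyCoh

variable {k : Type*} [CommRing k] {G Γ : Type*} [Group G] [Group Γ] (𝓛Γ : Levels Γ)
  {r : Γ →* G} {H : Subgroup G} {V : Type*} [AddCommGroup V] [Module k V]
  (σ : Representation k H V) {T : Type*} [Fintype T] {rep : T → G} (hrep : IsDCReps r H rep)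

omit [Fintype T] in
theorem mky_equivariant_ext_map (s : T) :
    IsEquivariant ((indRep H σ).comp r) ((indRep H σ).comp r)
      ((mackeyExt r H σ (rep s)).comp (mackeyMap r H σ (rep s))) := by
  intro γ f
  rw [LinearMap.comp_apply, LinearMap.comp_apply, mackeyMap_equivariant r H σ (rep s) γ f,
    mackeyExt_equivariant r H σ (rep s) γ _]

variable {𝓛 : Levels G} (hr : 𝓛Γ.Continuous 𝓛 r) (hH : 𝓛.IsOpen H)

/-- the `t`-component of the Mackey–Shapiro map in degree `0` -/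
noncomputable def mackeyShapiroHom0 (t : G) :
    ↥(smH0 ((indRep H σ).comp r)) →ₗ[k] ↥(smH0 (mackeyRep r H σ t)) :=
  (smShapiro0 (mackeySub r H t) (mackeyRep r H σ t)).toLinearMap.comp
    (smH0map (mackeyMap r H σ t) (mackeyMap_equivariant r H σ t))

/-- the `t`-component of the Mackey–Shapiro map in degree `1` -/
noncomputable def mackeyShapiroHom1 (t : G) :
    smH1 𝓛Γ ((indRep H σ).comp r) →ₗ[k] smH1 (𝓛Γ.sub (mackeySub r H t)) (mackeyRep r H σ t) :=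
  (smShapiro1Hom 𝓛Γ (mackeySub r H t) (mackeyRep r H σ t)).comp
    (smH1map 𝓛Γ (mackeyMap r H σ t) (mackeyMap_equivariant r H σ t))

/-- the `t`-component of the Mackey–Shapiro map in degree `2` -/
noncomputable def mackeyShapiroHom2 (t : G) :
    smH2 𝓛Γ ((indRep H σ).comp r) →ₗ[k] smH2 (𝓛Γ.sub (mackeySub r H t)) (mackeyRep r H σ t) :=
  (smShapiro2Hom 𝓛Γ (mackeySub r H t) (mackeyRep r H σ t)).comp
    (smH2map 𝓛Γ (mackeyMap r H σ t) (mackeyMap_equivariant r H σ t))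

/-- the `t`-component of the Mackey–Shapiro map in degree `3` -/
noncomputable def mackeyShapiroHom3 (t : G) :
    smH3 𝓛Γ ((indRep H σ).comp r) →ₗ[k] smH3 (𝓛Γ.sub (mackeySub r H t)) (mackeyRep r H σ t) :=
  (smShapiro3Hom 𝓛Γ (mackeySub r H t) (mackeyRep r H σ t)).comp
    (smH3map 𝓛Γ (mackeyMap r H σ t) (mackeyMap_equivariant r H σ t))

/-- the inverse direction, `t`-component, degree `0` -/
noncomputable def mackeyShapiroInv0 (t : G) :
    ↥(smH0 (mackeyRep r H σ t)) →ₗ[k] ↥(smH0 ((indRep H σ).comp r)) :=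
  (smH0map (mackeyExt r H σ t) (mackeyExt_equivariant r H σ t)).comp
    (smShapiro0 (mackeySub r H t) (mackeyRep r H σ t)).symm.toLinearMap

include hr hH in
/-- the inverse direction, `t`-component, degree `1` -/
noncomputable def mackeyShapiroInv1 (t : G) :
    smH1 (𝓛Γ.sub (mackeySub r H t)) (mackeyRep r H σ t) →ₗ[k] smH1 𝓛Γ ((indRep H σ).comp r) :=
  (smH1map 𝓛Γ (mackeyExt r H σ t) (mackeyExt_equivariant r H σ t)).comp
    (smShapiro1 𝓛Γ (mackeyRep r H σ t) (mackeySub_isOpen hr hH t)).symm.toLinearMap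

/-- the inverse direction, `t`-component, degree `2` -/
noncomputable def mackeyShapiroInv2 (t : G) :
    smH2 (𝓛Γ.sub (mackeySub r H t)) (mackeyRep r H σ t) →ₗ[k] smH2 𝓛Γ ((indRep H σ).comp r) :=
  (smH2map 𝓛Γ (mackeyExt r H σ t) (mackeyExt_equivariant r H σ t)).comp
    (smShapiro2 𝓛Γ (mackeyRep r H σ t) (mackeySub_isOpen hr hH t)).symm.toLinearMap

/-- the inverse direction, `t`-component, degree `3` -/
noncomputable def mackeyShapiroInv3 (t : G) :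
    smH3 (𝓛Γ.sub (mackeySub r H t)) (mackeyRep r H σ t) →ₗ[k] smH3 𝓛Γ ((indRep H σ).comp r) :=
  (smH3map 𝓛Γ (mackeyExt r H σ t) (mackeyExt_equivariant r H σ t)).comp
    (smShapiro3 𝓛Γ (mackeyRep r H σ t) (mackeySub_isOpen hr hH t)).symm.toLinearMap

omit [Fintype T] in
theorem mky_symm_hom1 (t : G) (hΓ : 𝓛Γ.IsOpen (mackeySub r H t))
    (x : smH1 𝓛Γ (indRep (mackeySub r H t) (mackeyRep r H σ t))) :
    (smShapiro1 𝓛Γ (mackeyRep r H σ t) hΓ).symm
      (smShapiro1Hom 𝓛Γ (mackeySub r H t) (mackeyRep r H σ t) x) = x :=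
  (smShapiro1 𝓛Γ (mackeyRep r H σ t) hΓ).symm_apply_apply x

omit [Fintype T] in
theorem mky_symm_hom2 (t : G) (hΓ : 𝓛Γ.IsOpen (mackeySub r H t))
    (x : smH2 𝓛Γ (indRep (mackeySub r H t) (mackeyRep r H σ t))) :
    (smShapiro2 𝓛Γ (mackeyRep r H σ t) hΓ).symm
      (smShapiro2Hom 𝓛Γ (mackeySub r H t) (mackeyRep r H σ t) x) = x :=
  (smShapiro2 𝓛Γ (mackeyRep r H σ t) hΓ).symm_apply_apply x

omit [Fintype T] in
theorem mky_symm_hom3 (t : G) (hΓ : 𝓛Γ.IsOpen (mackeySub r H t))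
    (x : smH3 𝓛Γ (indRep (mackeySub r H t) (mackeyRep r H σ t))) :
    (smShapiro3 𝓛Γ (mackeyRep r H σ t) hΓ).symm
      (smShapiro3Hom 𝓛Γ (mackeySub r H t) (mackeyRep r H σ t) x) = x :=
  (smShapiro3 𝓛Γ (mackeyRep r H σ t) hΓ).symm_apply_apply x

/-- `H⁰(Γ, Res Ind σ) ≃ ∏_t H⁰(Γ_t, σ^t)` -/
noncomputable def mackeyShapiro0 : ↥(smH0 ((indRep H σ).comp r)) ≃ₗ[k]
    ∀ s : T, ↥(smH0 (mackeyRep r H σ (rep s))) := by
  classical
  exact mky_biprodEquiv (k := k) (X := ↥(smH0 ((indRep H σ).comp r)))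
    (Y := fun s : T => ↥(smH0 (mackeyRep r H σ (rep s))))
    (fun s => mackeyShapiroHom0 σ (rep s)) (fun s => mackeyShapiroInv0 σ (rep s))
    (fun s y => by
      simp only [mackeyShapiroHom0, mackeyShapiroInv0, LinearMap.comp_apply,
        LinearEquiv.coe_coe]
      rw [mky_smH0map_comp _ _ (χ := LinearMap.id) (fun _ _ => rfl)
        (mackeyMap_mackeyExt r H σ (rep s)), mky_smH0map_id _ (fun _ => rfl),
        LinearEquiv.apply_symm_apply])
    (fun s s' hs y => by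
      simp only [mackeyShapiroHom0, mackeyShapiroInv0, LinearMap.comp_apply,
        LinearEquiv.coe_coe]
      rw [mky_smH0map_comp _ _ (χ := 0) (fun _ _ => by simp)
        (mackeyMap_mackeyExt_of_ne σ hrep hs), mky_smH0map_zero _ (fun _ => rfl), map_zero])
    (fun x => by
      simp only [mackeyShapiroHom0, mackeyShapiroInv0, LinearMap.comp_apply,
        LinearEquiv.coe_coe, LinearEquiv.symm_apply_apply]
      have h : ∀ s, smH0map (mackeyExt r H σ (rep s)) (mackeyExt_equivariant r H σ (rep s))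
          (smH0map (mackeyMap r H σ (rep s)) (mackeyMap_equivariant r H σ (rep s)) x)
          = smH0map _ (mky_equivariant_ext_map σ (rep := rep) s) x := fun s =>
        mky_smH0map_comp _ _ _ (fun _ => rfl) x
      simp only [h]
      exact mky_smH0map_sum _ (sum_mackeyExt_mackeyMap σ hrep) x)

/-- `H¹(Γ, Res Ind σ) ≃ ∏_t H¹(Γ_t, σ^t)` -/
noncomputable def mackeyShapiro1 : smH1 𝓛Γ ((indRep H σ).comp r) ≃ₗ[k]
    ∀ s : T, smH1 (𝓛Γ.sub (mackeySub r H (rep s))) (mackeyRep r H σ (rep s)) := by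
  classical
  exact mky_biprodEquiv (k := k) (X := smH1 𝓛Γ ((indRep H σ).comp r))
    (Y := fun s : T => smH1 (𝓛Γ.sub (mackeySub r H (rep s))) (mackeyRep r H σ (rep s)))
    (fun s => mackeyShapiroHom1 𝓛Γ σ (rep s)) (fun s => mackeyShapiroInv1 𝓛Γ σ hr hH (rep s))
    (fun s y => by
      simp only [mackeyShapiroHom1, mackeyShapiroInv1, LinearMap.comp_apply,
        LinearEquiv.coe_coe]
      rw [mky_smH1map_comp 𝓛Γ _ _ (χ := LinearMap.id) (fun _ _ => rfl)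
        (mackeyMap_mackeyExt r H σ (rep s)), mky_smH1map_id 𝓛Γ _ (fun _ => rfl)]
      exact LinearEquiv.apply_symm_apply (smShapiro1 𝓛Γ _ (mackeySub_isOpen hr hH (rep s))) y)
    (fun s s' hs y => by
      simp only [mackeyShapiroHom1, mackeyShapiroInv1, LinearMap.comp_apply,
        LinearEquiv.coe_coe]
      rw [mky_smH1map_comp 𝓛Γ _ _ (χ := 0) (fun _ _ => by simp)
        (mackeyMap_mackeyExt_of_ne σ hrep hs), mky_smH1map_zero 𝓛Γ _ (fun _ => rfl), map_zero])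
    (fun x => by
      have h : ∀ s, mackeyShapiroInv1 𝓛Γ σ hr hH (rep s) (mackeyShapiroHom1 𝓛Γ σ (rep s) x)
          = smH1map 𝓛Γ _ (mky_equivariant_ext_map σ (rep := rep) s) x := fun s => by
        simp only [mackeyShapiroHom1, mackeyShapiroInv1, LinearMap.comp_apply,
          LinearEquiv.coe_coe]
        rw [mky_symm_hom1]
        exact mky_smH1map_comp 𝓛Γ _ _ _ (fun _ => rfl) x
      simp only [h]
      exact mky_smH1map_sum 𝓛Γ _ (sum_mackeyExt_mackeyMap σ hrep) x)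

/-- `H²(Γ, Res Ind σ) ≃ ∏_t H²(Γ_t, σ^t)` -/
noncomputable def mackeyShapiro2 : smH2 𝓛Γ ((indRep H σ).comp r) ≃ₗ[k]
    ∀ s : T, smH2 (𝓛Γ.sub (mackeySub r H (rep s))) (mackeyRep r H σ (rep s)) := by
  classical
  exact mky_biprodEquiv (k := k) (X := smH2 𝓛Γ ((indRep H σ).comp r))
    (Y := fun s : T => smH2 (𝓛Γ.sub (mackeySub r H (rep s))) (mackeyRep r H σ (rep s)))
    (fun s => mackeyShapiroHom2 𝓛Γ σ (rep s)) (fun s => mackeyShapiroInv2 𝓛Γ σ hr hH (rep s))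
    (fun s y => by
      simp only [mackeyShapiroHom2, mackeyShapiroInv2, LinearMap.comp_apply,
        LinearEquiv.coe_coe]
      rw [mky_smH2map_comp 𝓛Γ _ _ (χ := LinearMap.id) (fun _ _ => rfl)
        (mackeyMap_mackeyExt r H σ (rep s)), mky_smH2map_id 𝓛Γ _ (fun _ => rfl)]
      exact LinearEquiv.apply_symm_apply (smShapiro2 𝓛Γ _ (mackeySub_isOpen hr hH (rep s))) y)
    (fun s s' hs y => by
      simp only [mackeyShapiroHom2, mackeyShapiroInv2, LinearMap.comp_apply,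
        LinearEquiv.coe_coe]
      rw [mky_smH2map_comp 𝓛Γ _ _ (χ := 0) (fun _ _ => by simp)
        (mackeyMap_mackeyExt_of_ne σ hrep hs), mky_smH2map_zero 𝓛Γ _ (fun _ => rfl), map_zero])
    (fun x => by
      have h : ∀ s, mackeyShapiroInv2 𝓛Γ σ hr hH (rep s) (mackeyShapiroHom2 𝓛Γ σ (rep s) x)
          = smH2map 𝓛Γ _ (mky_equivariant_ext_map σ (rep := rep) s) x := fun s => by
        simp only [mackeyShapiroHom2, mackeyShapiroInv2, LinearMap.comp_apply,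
          LinearEquiv.coe_coe]
        rw [mky_symm_hom2]
        exact mky_smH2map_comp 𝓛Γ _ _ _ (fun _ => rfl) x
      simp only [h]
      exact mky_smH2map_sum 𝓛Γ _ (sum_mackeyExt_mackeyMap σ hrep) x)

/-- `H³(Γ, Res Ind σ) ≃ ∏_t H³(Γ_t, σ^t)` -/
noncomputable def mackeyShapiro3 : smH3 𝓛Γ ((indRep H σ).comp r) ≃ₗ[k]
    ∀ s : T, smH3 (𝓛Γ.sub (mackeySub r H (rep s))) (mackeyRep r H σ (rep s)) := by
  classical
  exact mky_biprodEquiv (k := k) (X := smH3 𝓛Γ ((indRep H σ).comp r))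
    (Y := fun s : T => smH3 (𝓛Γ.sub (mackeySub r H (rep s))) (mackeyRep r H σ (rep s)))
    (fun s => mackeyShapiroHom3 𝓛Γ σ (rep s)) (fun s => mackeyShapiroInv3 𝓛Γ σ hr hH (rep s))
    (fun s y => by
      simp only [mackeyShapiroHom3, mackeyShapiroInv3, LinearMap.comp_apply,
        LinearEquiv.coe_coe]
      rw [mky_smH3map_comp 𝓛Γ _ _ (χ := LinearMap.id) (fun _ _ => rfl)
        (mackeyMap_mackeyExt r H σ (rep s)), mky_smH3map_id 𝓛Γ _ (fun _ => rfl)]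
      exact LinearEquiv.apply_symm_apply (smShapiro3 𝓛Γ _ (mackeySub_isOpen hr hH (rep s))) y)
    (fun s s' hs y => by
      simp only [mackeyShapiroHom3, mackeyShapiroInv3, LinearMap.comp_apply,
        LinearEquiv.coe_coe]
      rw [mky_smH3map_comp 𝓛Γ _ _ (χ := 0) (fun _ _ => by simp)
        (mackeyMap_mackeyExt_of_ne σ hrep hs), mky_smH3map_zero 𝓛Γ _ (fun _ => rfl), map_zero])
    (fun x => by
      have h : ∀ s, mackeyShapiroInv3 𝓛Γ σ hr hH (rep s) (mackeyShapiroHom3 𝓛Γ σ (rep s) x)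
          = smH3map 𝓛Γ _ (mky_equivariant_ext_map σ (rep := rep) s) x := fun s => by
        simp only [mackeyShapiroHom3, mackeyShapiroInv3, LinearMap.comp_apply,
          LinearEquiv.coe_coe]
        rw [mky_symm_hom3]
        exact mky_smH3map_comp 𝓛Γ _ _ _ (fun _ => rfl) x
      simp only [h]
      exact mky_smH3map_sum 𝓛Γ _ (sum_mackeyExt_mackeyMap σ hrep) x)

@[simp] theorem mackeyShapiro0_apply (x : ↥(smH0 ((indRep H σ).comp r))) (s : T) :
    mackeyShapiro0 σ hrep x s = mackeyShapiroHom0 σ (rep s) x := rfl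
@[simp] theorem mackeyShapiro1_apply (x : smH1 𝓛Γ ((indRep H σ).comp r)) (s : T) :
    mackeyShapiro1 𝓛Γ σ hrep hr hH x s = mackeyShapiroHom1 𝓛Γ σ (rep s) x := rfl
@[simp] theorem mackeyShapiro2_apply (x : smH2 𝓛Γ ((indRep H σ).comp r)) (s : T) :
    mackeyShapiro2 𝓛Γ σ hrep hr hH x s = mackeyShapiroHom2 𝓛Γ σ (rep s) x := rfl
@[simp] theorem mackeyShapiro3_apply (x : smH3 𝓛Γ ((indRep H σ).comp r)) (s : T) :
    mackeyShapiro3 𝓛Γ σ hrep hr hH x s = mackeyShapiroHom3 𝓛Γ σ (rep s) x := rfl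

theorem mackeyShapiro0_symm_apply (y : ∀ s : T, ↥(smH0 (mackeyRep r H σ (rep s)))) :
    (mackeyShapiro0 σ hrep).symm y = ∑ s, mackeyShapiroInv0 σ (rep s) (y s) := rfl
theorem mackeyShapiro1_symm_apply
    (y : ∀ s : T, smH1 (𝓛Γ.sub (mackeySub r H (rep s))) (mackeyRep r H σ (rep s))) :
    (mackeyShapiro1 𝓛Γ σ hrep hr hH).symm y
      = ∑ s, mackeyShapiroInv1 𝓛Γ σ hr hH (rep s) (y s) := rfl
theorem mackeyShapiro2_symm_apply
    (y : ∀ s : T, smH2 (𝓛Γ.sub (mackeySub r H (rep s))) (mackeyRep r H σ (rep s))) :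
    (mackeyShapiro2 𝓛Γ σ hrep hr hH).symm y
      = ∑ s, mackeyShapiroInv2 𝓛Γ σ hr hH (rep s) (y s) := rfl
theorem mackeyShapiro3_symm_apply
    (y : ∀ s : T, smH3 (𝓛Γ.sub (mackeySub r H (rep s))) (mackeyRep r H σ (rep s))) :
    (mackeyShapiro3 𝓛Γ σ hrep hr hH).symm y
      = ∑ s, mackeyShapiroInv3 𝓛Γ σ hr hH (rep s) (y s) := rfl

end MackeyCoh

end Fermat.Agent.S55
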