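import Fermat.Agent.S55.SM.IndDefs
import Fermat.Agent.S55.SM.Homog

/-!
# S55, layer SM, file 2: the cochain maps of Shapiro's lemma in degrees `≤ 3` (`≤ 4` for `sh`)

* `sh₁ … sh₄ : Cⁿ(G, Ind W) → Cⁿ(H, W)`, `F ↦ (h ↦ F h 1)`  (restriction + evaluation at `1`);
* `ind₀ … ind₃ : Cⁿ(H, W) → Cⁿ(G, Ind W)` (depends on a section `s : IndSection H`);
* the prism homotopies `prism₁ … prism₄ : Cⁿ(G, Ind W) → Cⁿ⁻¹(G, Ind W)`;
* identities: both commute with `dd`, `sh ∘ ind = id`, and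
  `F - ind (sh F) = dd (prism F) + prism (dd F)`.

Everything here is algebra; level-constancy is treated in `ShapiroSmooth.lean`.
-/

set_option autoImplicit false

namespace Fermat.Agent.S55

variable {k : Type*} [CommRing k] {G : Type*} [Group G] (H : Subgroup G)
  {W : Type*} [AddCommGroup W] [Module k W] (σ : Representation k H W)

section Phi

/-- homogeneous form (evaluated at `1`) of an `Ind W`-valued `1`-cochain -/
def iPhi1 (F : G → indSpace H σ) (x₀ x₁ : G) : W := (F (x₀⁻¹ * x₁) : G → W) x₀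
/-- homogeneous form (evaluated at `1`) of an `Ind W`-valued `2`-cochain -/
def iPhi2 (F : G × G → indSpace H σ) (x₀ x₁ x₂ : G) : W :=
  (F (x₀⁻¹ * x₁, x₁⁻¹ * x₂) : G → W) x₀
/-- homogeneous form (evaluated at `1`) of an `Ind W`-valued `3`-cochain -/
def iPhi3 (F : G × G × G → indSpace H σ) (x₀ x₁ x₂ x₃ : G) : W :=
  (F (x₀⁻¹ * x₁, x₁⁻¹ * x₂, x₂⁻¹ * x₃) : G → W) x₀
/-- homogeneous form (evaluated at `1`) of an `Ind W`-valued `4`-cochain -/
def iPhi4 (F : G × G × G × G → indSpace H σ) (x₀ x₁ x₂ x₃ x₄ : G) : W :=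
  (F (x₀⁻¹ * x₁, x₁⁻¹ * x₂, x₂⁻¹ * x₃, x₃⁻¹ * x₄) : G → W) x₀

variable {H σ}

lemma iPhi1_smul (F : G → indSpace H σ) (h : H) (x₀ x₁ : G) :
    iPhi1 H σ F (h * x₀) (h * x₁) = σ h (iPhi1 H σ F x₀ x₁) := by
  simp only [iPhi1, mul_inv_rev, mul_assoc, inv_mul_cancel_left, indSpace_apply_mul]

lemma iPhi2_smul (F : G × G → indSpace H σ) (h : H) (x₀ x₁ x₂ : G) :
    iPhi2 H σ F (h * x₀) (h * x₁) (h * x₂) = σ h (iPhi2 H σ F x₀ x₁ x₂) := by
  simp only [iPhi2, mul_inv_rev, mul_assoc, inv_mul_cancel_left, indSpace_apply_mul]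

lemma iPhi3_smul (F : G × G × G → indSpace H σ) (h : H) (x₀ x₁ x₂ x₃ : G) :
    iPhi3 H σ F (h * x₀) (h * x₁) (h * x₂) (h * x₃) = σ h (iPhi3 H σ F x₀ x₁ x₂ x₃) := by
  simp only [iPhi3, mul_inv_rev, mul_assoc, inv_mul_cancel_left, indSpace_apply_mul]

lemma iPhi4_smul (F : G × G × G × G → indSpace H σ) (h : H) (x₀ x₁ x₂ x₃ x₄ : G) :
    iPhi4 H σ F (h * x₀) (h * x₁) (h * x₂) (h * x₃) (h * x₄)
      = σ h (iPhi4 H σ F x₀ x₁ x₂ x₃ x₄) := by
  simp only [iPhi4, mul_inv_rev, mul_assoc, inv_mul_cancel_left, indSpace_apply_mul]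

lemma apply_eq_iPhi1 (F : G → indSpace H σ) (g y : G) :
    (F g : G → W) y = iPhi1 H σ F y (y * g) := by
  simp only [iPhi1, inv_mul_cancel_left]

lemma apply_eq_iPhi2 (F : G × G → indSpace H σ) (g₁ g₂ y : G) :
    (F (g₁, g₂) : G → W) y = iPhi2 H σ F y (y * g₁) (y * g₁ * g₂) := by
  simp only [iPhi2, inv_mul_cancel_left]

lemma apply_eq_iPhi3 (F : G × G × G → indSpace H σ) (g₁ g₂ g₃ y : G) :
    (F (g₁, g₂, g₃) : G → W) y = iPhi3 H σ F y (y * g₁) (y * g₁ * g₂) (y * g₁ * g₂ * g₃) := by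
  simp only [iPhi3, inv_mul_cancel_left]

lemma apply_eq_iPhi4 (F : G × G × G × G → indSpace H σ) (g₁ g₂ g₃ g₄ y : G) :
    (F (g₁, g₂, g₃, g₄) : G → W) y
      = iPhi4 H σ F y (y * g₁) (y * g₁ * g₂) (y * g₁ * g₂ * g₃) (y * g₁ * g₂ * g₃ * g₄) := by
  simp only [iPhi4, inv_mul_cancel_left]

lemma iPhi1_dd0 (F : indSpace H σ) (x₀ x₁ : G) :
    iPhi1 H σ (dd0 (indRep H σ) F) x₀ x₁ = (F : G → W) x₁ - (F : G → W) x₀ := by
  simp only [iPhi1, dd0_apply, Submodule.coe_sub, Pi.sub_apply, indRep_apply, mul_inv_cancel_left]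

lemma iPhi2_dd1 (F : G → indSpace H σ) (x₀ x₁ x₂ : G) :
    iPhi2 H σ (dd1 (indRep H σ) F) x₀ x₁ x₂
      = iPhi1 H σ F x₁ x₂ - iPhi1 H σ F x₀ x₂ + iPhi1 H σ F x₀ x₁ := by
  simp only [iPhi2, iPhi1, dd1_apply, Submodule.coe_sub, Submodule.coe_add, Pi.sub_apply,
    Pi.add_apply, indRep_apply, mul_inv_cancel_left, mul_assoc]

lemma iPhi3_dd2 (F : G × G → indSpace H σ) (x₀ x₁ x₂ x₃ : G) :
    iPhi3 H σ (dd2 (indRep H σ) F) x₀ x₁ x₂ x₃
      = iPhi2 H σ F x₁ x₂ x₃ - iPhi2 H σ F x₀ x₂ x₃ + iPhi2 H σ F x₀ x₁ x₃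
        - iPhi2 H σ F x₀ x₁ x₂ := by
  simp only [iPhi3, iPhi2, dd2_apply, Submodule.coe_sub, Submodule.coe_add, Pi.sub_apply,
    Pi.add_apply, indRep_apply, mul_inv_cancel_left, mul_assoc]

lemma iPhi4_dd3 (F : G × G × G → indSpace H σ) (x₀ x₁ x₂ x₃ x₄ : G) :
    iPhi4 H σ (dd3 (indRep H σ) F) x₀ x₁ x₂ x₃ x₄
      = iPhi3 H σ F x₁ x₂ x₃ x₄ - iPhi3 H σ F x₀ x₂ x₃ x₄ + iPhi3 H σ F x₀ x₁ x₃ x₄
        - iPhi3 H σ F x₀ x₁ x₂ x₄ + iPhi3 H σ F x₀ x₁ x₂ x₃ := by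
  simp only [iPhi4, iPhi3, dd3_apply, Submodule.coe_sub, Submodule.coe_add, Pi.sub_apply,
    Pi.add_apply, indRep_apply, mul_inv_cancel_left, mul_assoc]

end Phi

section Sh

/-- Shapiro map in degree `0`: evaluation at `1`. -/
abbrev sh0 : indSpace H σ →ₗ[k] W := indEv H σ

/-- Shapiro map on `1`-cochains. -/
def sh1 : (G → indSpace H σ) →ₗ[k] (H → W) where
  toFun F h := (F (h : G) : G → W) 1
  map_add' _ _ := rfl
  map_smul' _ _ := rfl

/-- Shapiro map on `2`-cochains. -/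
def sh2 : (G × G → indSpace H σ) →ₗ[k] (H × H → W) where
  toFun F p := (F ((p.1 : G), (p.2 : G)) : G → W) 1
  map_add' _ _ := rfl
  map_smul' _ _ := rfl

/-- Shapiro map on `3`-cochains. -/
def sh3 : (G × G × G → indSpace H σ) →ₗ[k] (H × H × H → W) where
  toFun F p := (F ((p.1 : G), (p.2.1 : G), (p.2.2 : G)) : G → W) 1
  map_add' _ _ := rfl
  map_smul' _ _ := rfl

/-- Shapiro map on `4`-cochains. -/
def sh4 : (G × G × G × G → indSpace H σ) →ₗ[k] (H × H × H × H → W) where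
  toFun F p := (F ((p.1 : G), (p.2.1 : G), (p.2.2.1 : G), (p.2.2.2 : G)) : G → W) 1
  map_add' _ _ := rfl
  map_smul' _ _ := rfl

@[simp] lemma sh1_apply (F : G → indSpace H σ) (h : H) :
    sh1 H σ F h = (F (h : G) : G → W) 1 := rfl
@[simp] lemma sh2_apply (F : G × G → indSpace H σ) (h₁ h₂ : H) :
    sh2 H σ F (h₁, h₂) = (F ((h₁ : G), (h₂ : G)) : G → W) 1 := rfl
@[simp] lemma sh3_apply (F : G × G × G → indSpace H σ) (h₁ h₂ h₃ : H) :
    sh3 H σ F (h₁, h₂, h₃) = (F ((h₁ : G), (h₂ : G), (h₃ : G)) : G → W) 1 := rfl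
@[simp] lemma sh4_apply (F : G × G × G × G → indSpace H σ) (h₁ h₂ h₃ h₄ : H) :
    sh4 H σ F (h₁, h₂, h₃, h₄) = (F ((h₁ : G), (h₂ : G), (h₃ : G), (h₄ : G)) : G → W) 1 := rfl

lemma sh1_dd0 (F : indSpace H σ) : sh1 H σ (dd0 (indRep H σ) F) = dd0 σ (sh0 H σ F) := by
  ext h
  simp only [sh1_apply, dd0_apply, Submodule.coe_sub, Pi.sub_apply, indRep_apply, one_mul,
    indEv_apply, indSpace_apply_coe F h]

lemma sh2_dd1 (F : G → indSpace H σ) : sh2 H σ (dd1 (indRep H σ) F) = dd1 σ (sh1 H σ F) := by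
  ext ⟨h₁, h₂⟩
  simp only [sh2_apply, dd1_apply, Submodule.coe_sub, Submodule.coe_add, Pi.sub_apply,
    Pi.add_apply, indRep_apply, one_mul, sh1_apply, indSpace_apply_coe _ h₁, Subgroup.coe_mul]

lemma sh3_dd2 (F : G × G → indSpace H σ) : sh3 H σ (dd2 (indRep H σ) F) = dd2 σ (sh2 H σ F) := by
  ext ⟨h₁, h₂, h₃⟩
  simp only [sh3_apply, dd2_apply, Submodule.coe_sub, Submodule.coe_add, Pi.sub_apply,
    Pi.add_apply, indRep_apply, one_mul, sh2_apply, indSpace_apply_coe _ h₁, Subgroup.coe_mul]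

lemma sh4_dd3 (F : G × G × G → indSpace H σ) :
    sh4 H σ (dd3 (indRep H σ) F) = dd3 σ (sh3 H σ F) := by
  ext ⟨h₁, h₂, h₃, h₄⟩
  simp only [sh4_apply, dd3_apply, Submodule.coe_sub, Submodule.coe_add, Pi.sub_apply,
    Pi.add_apply, indRep_apply, one_mul, sh3_apply, indSpace_apply_coe _ h₁, Subgroup.coe_mul]

variable {H σ}

lemma hom1_sh1 (F : G → indSpace H σ) (h₀ h₁ : H) :
    hom1 σ (sh1 H σ F) h₀ h₁ = iPhi1 H σ F h₀ h₁ := by
  simp only [hom1, sh1_apply, iPhi1, Subgroup.coe_mul, Subgroup.coe_inv,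
    ← indSpace_apply_coe _ h₀]

lemma hom2_sh2 (F : G × G → indSpace H σ) (h₀ h₁ h₂ : H) :
    hom2 σ (sh2 H σ F) h₀ h₁ h₂ = iPhi2 H σ F h₀ h₁ h₂ := by
  simp only [hom2, sh2_apply, iPhi2, Subgroup.coe_mul, Subgroup.coe_inv,
    ← indSpace_apply_coe _ h₀]

lemma hom3_sh3 (F : G × G × G → indSpace H σ) (h₀ h₁ h₂ h₃ : H) :
    hom3 σ (sh3 H σ F) h₀ h₁ h₂ h₃ = iPhi3 H σ F h₀ h₁ h₂ h₃ := by
  simp only [hom3, sh3_apply, iPhi3, Subgroup.coe_mul, Subgroup.coe_inv,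
    ← indSpace_apply_coe _ h₀]

end Sh

section Ind

variable {H}
variable (s : IndSection H)

/-- inverse Shapiro map in degree `0` -/
def ind0 (w : W) : indSpace H σ :=
  ⟨fun y => hom0 σ w (s.η y), fun h y => by
    simp only [s.map_mul, hom0_smul]⟩

/-- inverse Shapiro map on `1`-cochains -/
def ind1 (φ : H → W) (g : G) : indSpace H σ :=
  ⟨fun y => hom1 σ φ (s.η y) (s.η (y * g)), fun h y => by
    simp only [mul_assoc, s.map_mul, hom1_smul]⟩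

/-- inverse Shapiro map on `2`-cochains -/
def ind2 (φ : H × H → W) (p : G × G) : indSpace H σ :=
  ⟨fun y => hom2 σ φ (s.η y) (s.η (y * p.1)) (s.η (y * p.1 * p.2)), fun h y => by
    simp only [mul_assoc, s.map_mul, hom2_smul]⟩

/-- inverse Shapiro map on `3`-cochains -/
def ind3 (φ : H × H × H → W) (p : G × G × G) : indSpace H σ :=
  ⟨fun y => hom3 σ φ (s.η y) (s.η (y * p.1)) (s.η (y * p.1 * p.2.1))
      (s.η (y * p.1 * p.2.1 * p.2.2)), fun h y => by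
    simp only [mul_assoc, s.map_mul, hom3_smul]⟩

/-- inverse Shapiro map on `4`-cochains -/
def ind4 (φ : H × H × H × H → W) (p : G × G × G × G) : indSpace H σ :=
  ⟨fun y => hom4 σ φ (s.η y) (s.η (y * p.1)) (s.η (y * p.1 * p.2.1))
      (s.η (y * p.1 * p.2.1 * p.2.2.1)) (s.η (y * p.1 * p.2.1 * p.2.2.1 * p.2.2.2)), fun h y => by
    simp only [mul_assoc, s.map_mul, hom4_smul]⟩

@[simp] lemma ind0_apply (w : W) (y : G) :
    (ind0 σ s w : G → W) y = hom0 σ w (s.η y) := rfl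
@[simp] lemma ind1_apply (φ : H → W) (g y : G) :
    (ind1 σ s φ g : G → W) y = hom1 σ φ (s.η y) (s.η (y * g)) := rfl
@[simp] lemma ind2_apply (φ : H × H → W) (g₁ g₂ y : G) :
    (ind2 σ s φ (g₁, g₂) : G → W) y = hom2 σ φ (s.η y) (s.η (y * g₁)) (s.η (y * g₁ * g₂)) := rfl
@[simp] lemma ind3_apply (φ : H × H × H → W) (g₁ g₂ g₃ y : G) :
    (ind3 σ s φ (g₁, g₂, g₃) : G → W) y
      = hom3 σ φ (s.η y) (s.η (y * g₁)) (s.η (y * g₁ * g₂)) (s.η (y * g₁ * g₂ * g₃)) := rfl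
@[simp] lemma ind4_apply (φ : H × H × H × H → W) (g₁ g₂ g₃ g₄ y : G) :
    (ind4 σ s φ (g₁, g₂, g₃, g₄) : G → W) y
      = hom4 σ φ (s.η y) (s.η (y * g₁)) (s.η (y * g₁ * g₂)) (s.η (y * g₁ * g₂ * g₃))
          (s.η (y * g₁ * g₂ * g₃ * g₄)) := rfl

/-- `sh ∘ ind = id` in degree `0` -/
lemma sh0_ind0 (w : W) : sh0 H σ (ind0 σ s w) = w := by
  simp only [indEv_apply, ind0_apply, hom0, s.map_one, map_one, Module.End.one_apply]

/-- `sh ∘ ind = id` in degree `1` -/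
lemma sh1_ind1 (φ : H → W) : sh1 H σ (ind1 σ s φ) = φ := by
  ext h
  simp only [sh1_apply, ind1_apply, one_mul, s.map_one, s.map_coe, hom1_one]

/-- `sh ∘ ind = id` in degree `2` -/
lemma sh2_ind2 (φ : H × H → W) : sh2 H σ (ind2 σ s φ) = φ := by
  ext ⟨h₁, h₂⟩
  simp only [sh2_apply, ind2_apply, one_mul, s.map_one, s.map_coe, ← Subgroup.coe_mul, hom2_one]

/-- `sh ∘ ind = id` in degree `3` -/
lemma sh3_ind3 (φ : H × H × H → W) : sh3 H σ (ind3 σ s φ) = φ := by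
  ext ⟨h₁, h₂, h₃⟩
  simp only [sh3_apply, ind3_apply, one_mul, s.map_one, s.map_coe, ← Subgroup.coe_mul, hom3_one]

/-- `ind` commutes with the differential, degree `0 → 1` -/
lemma ind1_dd0 (w : W) : ind1 σ s (dd0 σ w) = dd0 (indRep H σ) (ind0 σ s w) := by
  ext g y
  simp only [ind1_apply, hom1_dd0, dd0_apply, Submodule.coe_sub, Pi.sub_apply, indRep_apply,
    ind0_apply]

/-- `ind` commutes with the differential, degree `1 → 2` -/
lemma ind2_dd1 (φ : H → W) : ind2 σ s (dd1 σ φ) = dd1 (indRep H σ) (ind1 σ s φ) := by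
  ext ⟨g₁, g₂⟩ y
  simp only [ind2_apply, hom2_dd1, dd1_apply, Submodule.coe_sub, Submodule.coe_add, Pi.sub_apply,
    Pi.add_apply, indRep_apply, ind1_apply, mul_assoc]

/-- `ind` commutes with the differential, degree `2 → 3` -/
lemma ind3_dd2 (φ : H × H → W) : ind3 σ s (dd2 σ φ) = dd2 (indRep H σ) (ind2 σ s φ) := by
  ext ⟨g₁, g₂, g₃⟩ y
  simp only [ind3_apply, hom3_dd2, dd2_apply, Submodule.coe_sub, Submodule.coe_add, Pi.sub_apply,
    Pi.add_apply, indRep_apply, ind2_apply, mul_assoc]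

/-- `ind` commutes with the differential, degree `3 → 4` -/
lemma ind4_dd3 (φ : H × H × H → W) : ind4 σ s (dd3 σ φ) = dd3 (indRep H σ) (ind3 σ s φ) := by
  ext ⟨g₁, g₂, g₃, g₄⟩ y
  simp only [ind4_apply, hom4_dd3, dd3_apply, Submodule.coe_sub, Submodule.coe_add, Pi.sub_apply,
    Pi.add_apply, indRep_apply, ind3_apply, mul_assoc]

end Ind

section Prism

variable {H}
variable (s : IndSection H)

/-- prism homotopy `C¹ → C⁰` -/
def prism1 (F : G → indSpace H σ) : indSpace H σ :=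
  ⟨fun y => iPhi1 H σ F (s.η y) y, fun h y => by
    simp only [s.map_mul, Subgroup.coe_mul, iPhi1_smul]⟩

/-- prism homotopy `C² → C¹` -/
def prism2 (F : G × G → indSpace H σ) (g : G) : indSpace H σ :=
  ⟨fun y => iPhi2 H σ F (s.η y) y (y * g) - iPhi2 H σ F (s.η y) (s.η (y * g)) (y * g),
    fun h y => by
      simp only [mul_assoc, s.map_mul, Subgroup.coe_mul, iPhi2_smul, map_sub]⟩

/-- prism homotopy `C³ → C²` -/
def prism3 (F : G × G × G → indSpace H σ) (p : G × G) : indSpace H σ :=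
  ⟨fun y => iPhi3 H σ F (s.η y) y (y * p.1) (y * p.1 * p.2)
      - iPhi3 H σ F (s.η y) (s.η (y * p.1)) (y * p.1) (y * p.1 * p.2)
      + iPhi3 H σ F (s.η y) (s.η (y * p.1)) (s.η (y * p.1 * p.2)) (y * p.1 * p.2),
    fun h y => by
      simp only [mul_assoc, s.map_mul, Subgroup.coe_mul, iPhi3_smul, map_sub, map_add]⟩

/-- prism homotopy `C⁴ → C³` -/
def prism4 (F : G × G × G × G → indSpace H σ) (p : G × G × G) : indSpace H σ :=
  ⟨fun y => iPhi4 H σ F (s.η y) y (y * p.1) (y * p.1 * p.2.1) (y * p.1 * p.2.1 * p.2.2)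
      - iPhi4 H σ F (s.η y) (s.η (y * p.1)) (y * p.1) (y * p.1 * p.2.1) (y * p.1 * p.2.1 * p.2.2)
      + iPhi4 H σ F (s.η y) (s.η (y * p.1)) (s.η (y * p.1 * p.2.1)) (y * p.1 * p.2.1)
          (y * p.1 * p.2.1 * p.2.2)
      - iPhi4 H σ F (s.η y) (s.η (y * p.1)) (s.η (y * p.1 * p.2.1))
          (s.η (y * p.1 * p.2.1 * p.2.2)) (y * p.1 * p.2.1 * p.2.2),
    fun h y => by
      simp only [mul_assoc, s.map_mul, Subgroup.coe_mul, iPhi4_smul, map_sub, map_add]⟩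

@[simp] lemma prism1_apply (F : G → indSpace H σ) (y : G) :
    (prism1 σ s F : G → W) y = iPhi1 H σ F (s.η y) y := rfl

@[simp] lemma prism2_apply (F : G × G → indSpace H σ) (g y : G) :
    (prism2 σ s F g : G → W) y
      = iPhi2 H σ F (s.η y) y (y * g) - iPhi2 H σ F (s.η y) (s.η (y * g)) (y * g) := rfl

@[simp] lemma prism3_apply (F : G × G × G → indSpace H σ) (g₁ g₂ y : G) :
    (prism3 σ s F (g₁, g₂) : G → W) y
      = iPhi3 H σ F (s.η y) y (y * g₁) (y * g₁ * g₂)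
        - iPhi3 H σ F (s.η y) (s.η (y * g₁)) (y * g₁) (y * g₁ * g₂)
        + iPhi3 H σ F (s.η y) (s.η (y * g₁)) (s.η (y * g₁ * g₂)) (y * g₁ * g₂) := rfl

@[simp] lemma prism4_apply (F : G × G × G × G → indSpace H σ) (g₁ g₂ g₃ y : G) :
    (prism4 σ s F (g₁, g₂, g₃) : G → W) y
      = iPhi4 H σ F (s.η y) y (y * g₁) (y * g₁ * g₂) (y * g₁ * g₂ * g₃)
        - iPhi4 H σ F (s.η y) (s.η (y * g₁)) (y * g₁) (y * g₁ * g₂) (y * g₁ * g₂ * g₃)
        + iPhi4 H σ F (s.η y) (s.η (y * g₁)) (s.η (y * g₁ * g₂)) (y * g₁ * g₂)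
            (y * g₁ * g₂ * g₃)
        - iPhi4 H σ F (s.η y) (s.η (y * g₁)) (s.η (y * g₁ * g₂))
            (s.η (y * g₁ * g₂ * g₃)) (y * g₁ * g₂ * g₃) := rfl

lemma prism2_zero : prism2 σ s (0 : G × G → indSpace H σ) = 0 := by
  ext g y
  simp only [prism2_apply, iPhi2, Pi.zero_apply, ZeroMemClass.coe_zero, sub_self]

lemma prism3_zero : prism3 σ s (0 : G × G × G → indSpace H σ) = 0 := by
  ext ⟨g₁, g₂⟩ y
  simp only [prism3_apply, iPhi3, Pi.zero_apply, ZeroMemClass.coe_zero, sub_self, add_zero]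

lemma prism4_zero : prism4 σ s (0 : G × G × G × G → indSpace H σ) = 0 := by
  ext ⟨g₁, g₂, g₃⟩ y
  simp only [prism4_apply, iPhi4, Pi.zero_apply, ZeroMemClass.coe_zero, sub_self, add_zero]

/-- homotopy identity in degree `1` -/
theorem prism_identity1 (F : G → indSpace H σ) :
    F - ind1 σ s (sh1 H σ F) = dd0 (indRep H σ) (prism1 σ s F) + prism2 σ s (dd1 (indRep H σ) F) := by
  ext g y
  simp only [Pi.sub_apply, Pi.add_apply, Submodule.coe_sub, Submodule.coe_add, ind1_apply,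
    hom1_sh1, dd0_apply, indRep_apply, prism1_apply, prism2_apply, iPhi2_dd1,
    apply_eq_iPhi1 F g y]
  abel

/-- homotopy identity in degree `2` -/
theorem prism_identity2 (F : G × G → indSpace H σ) :
    F - ind2 σ s (sh2 H σ F) = dd1 (indRep H σ) (prism2 σ s F) + prism3 σ s (dd2 (indRep H σ) F) := by
  ext ⟨g₁, g₂⟩ y
  simp only [Pi.sub_apply, Pi.add_apply, Submodule.coe_sub, Submodule.coe_add, ind2_apply,
    hom2_sh2, dd1_apply, indRep_apply, prism2_apply, prism3_apply, iPhi3_dd2,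
    apply_eq_iPhi2 F g₁ g₂ y, mul_assoc]
  abel

/-- homotopy identity in degree `3` -/
theorem prism_identity3 (F : G × G × G → indSpace H σ) :
    F - ind3 σ s (sh3 H σ F) = dd2 (indRep H σ) (prism3 σ s F) + prism4 σ s (dd3 (indRep H σ) F) := by
  ext ⟨g₁, g₂, g₃⟩ y
  simp only [Pi.sub_apply, Pi.add_apply, Submodule.coe_sub, Submodule.coe_add, ind3_apply,
    hom3_sh3, dd2_apply, indRep_apply, prism3_apply, prism4_apply, iPhi4_dd3,
    apply_eq_iPhi3 F g₁ g₂ g₃ y, mul_assoc]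
  abel

end Prism

end Fermat.Agent.S55
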