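import Fermat.Agent.S55.SM.ShapiroMaps

/-!
# S55, layer SM, file 3: Shapiro's lemma for smooth cohomology in degrees `0 … 3`

`smShapiro₀ … smShapiro₃ : smHₙ 𝓛 (indRep H σ) ≃ₗ[k] smHₙ (𝓛.sub H) σ` for an open subgroup `H`
of `(G, 𝓛)`; the forward map is induced by `shₙ` (restriction to `H` + evaluation at `1`).
-/

set_option autoImplicit false

namespace Fermat.Agent.S55

variable {k : Type*} [CommRing k] {G : Type*} [Group G]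

section UC

variable {X : Type*}

/-- `f` is constant on left `U`-cosets. -/
def IsUC₁ (U : Subgroup G) (f : G → X) : Prop :=
  ∀ a b : G, a⁻¹ * b ∈ U → f a = f b

/-- `f` is constant on left `U`-cosets in both variables. -/
def IsUC₂ (U : Subgroup G) (f : G × G → X) : Prop :=
  ∀ a₁ a₂ b₁ b₂ : G, a₁⁻¹ * b₁ ∈ U → a₂⁻¹ * b₂ ∈ U → f (a₁, a₂) = f (b₁, b₂)

/-- `f` is constant on left `U`-cosets in the three variables. -/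
def IsUC₃ (U : Subgroup G) (f : G × G × G → X) : Prop :=
  ∀ a₁ a₂ a₃ b₁ b₂ b₃ : G, a₁⁻¹ * b₁ ∈ U → a₂⁻¹ * b₂ ∈ U → a₃⁻¹ * b₃ ∈ U →
    f (a₁, a₂, a₃) = f (b₁, b₂, b₃)

/-- `f` is constant on left `U`-cosets in the four variables. -/
def IsUC₄ (U : Subgroup G) (f : G × G × G × G → X) : Prop :=
  ∀ a₁ a₂ a₃ a₄ b₁ b₂ b₃ b₄ : G, a₁⁻¹ * b₁ ∈ U → a₂⁻¹ * b₂ ∈ U → a₃⁻¹ * b₃ ∈ U →
    a₄⁻¹ * b₄ ∈ U → f (a₁, a₂, a₃, a₄) = f (b₁, b₂, b₃, b₄)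

variable (𝓛 : Levels G)

lemma IsUC₁.isLC {U : Subgroup G} (hU : 𝓛.IsLevel U) {f : G → X} (hf : IsUC₁ U f) :
    IsLC₁ 𝓛 f :=
  ⟨U, hU, fun g s hs => (hf g (g * s) (by simpa using hs)).symm⟩

lemma IsUC₂.isLC {U : Subgroup G} (hU : 𝓛.IsLevel U) {f : G × G → X} (hf : IsUC₂ U f) :
    IsLC₂ 𝓛 f :=
  ⟨U, hU, fun g g' s s' hs hs' =>
    (hf g g' (g * s) (g' * s') (by simpa using hs) (by simpa using hs')).symm⟩

lemma IsUC₃.isLC {U : Subgroup G} (hU : 𝓛.IsLevel U) {f : G × G × G → X} (hf : IsUC₃ U f) :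
    IsLC₃ 𝓛 f :=
  ⟨U, hU, fun g g' g'' s s' s'' hs hs' hs'' =>
    (hf g g' g'' (g * s) (g' * s') (g'' * s'') (by simpa using hs) (by simpa using hs')
      (by simpa using hs'')).symm⟩

variable {𝓛}

/-- a level-constant function is constant on the cosets of a small normal level -/
lemma IsLC₁.exists_isUC {f : G → X} (hf : IsLC₁ 𝓛 f) {V : Subgroup G} (hV : 𝓛.IsOpen V) :
    ∃ U, 𝓛.IsLevel U ∧ U.Normal ∧ U ≤ V ∧ IsUC₁ U f := by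
  obtain ⟨U₁, hU₁, h⟩ := hf
  obtain ⟨U₂, hU₂, hle₂⟩ := hV
  obtain ⟨U, hU, hn, hle, hle'⟩ := 𝓛.exists_normal_le_inf U₁ U₂ hU₁ hU₂
  refine ⟨U, hU, hn, hle'.trans hle₂, fun a b hab => ?_⟩
  have := h a (a⁻¹ * b) (hle hab)
  rw [mul_inv_cancel_left] at this
  exact this.symm

lemma IsLC₂.exists_isUC {f : G × G → X} (hf : IsLC₂ 𝓛 f) {V : Subgroup G} (hV : 𝓛.IsOpen V) :
    ∃ U, 𝓛.IsLevel U ∧ U.Normal ∧ U ≤ V ∧ IsUC₂ U f := by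
  obtain ⟨U₁, hU₁, h⟩ := hf
  obtain ⟨U₂, hU₂, hle₂⟩ := hV
  obtain ⟨U, hU, hn, hle, hle'⟩ := 𝓛.exists_normal_le_inf U₁ U₂ hU₁ hU₂
  refine ⟨U, hU, hn, hle'.trans hle₂, fun a₁ a₂ b₁ b₂ h₁ h₂ => ?_⟩
  have := h a₁ a₂ (a₁⁻¹ * b₁) (a₂⁻¹ * b₂) (hle h₁) (hle h₂)
  rw [mul_inv_cancel_left, mul_inv_cancel_left] at this
  exact this.symm

lemma IsLC₃.exists_isUC {f : G × G × G → X} (hf : IsLC₃ 𝓛 f) {V : Subgroup G}
    (hV : 𝓛.IsOpen V) : ∃ U, 𝓛.IsLevel U ∧ U.Normal ∧ U ≤ V ∧ IsUC₃ U f := by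
  obtain ⟨U₁, hU₁, h⟩ := hf
  obtain ⟨U₂, hU₂, hle₂⟩ := hV
  obtain ⟨U, hU, hn, hle, hle'⟩ := 𝓛.exists_normal_le_inf U₁ U₂ hU₁ hU₂
  refine ⟨U, hU, hn, hle'.trans hle₂, fun a₁ a₂ a₃ b₁ b₂ b₃ h₁ h₂ h₃ => ?_⟩
  have := h a₁ a₂ a₃ (a₁⁻¹ * b₁) (a₂⁻¹ * b₂) (a₃⁻¹ * b₃) (hle h₁) (hle h₂) (hle h₃)
  rw [mul_inv_cancel_left, mul_inv_cancel_left, mul_inv_cancel_left] at this
  exact this.symm

end UC

section UCsub

variable {X : Type*} {𝓛 : Levels G} {H : Subgroup G}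

/-- the same for functions on an open subgroup -/
lemma IsLC₁.exists_isUC_sub {φ : H → X} (hφ : IsLC₁ (𝓛.sub H) φ) (hH : 𝓛.IsOpen H) :
    ∃ U, 𝓛.IsLevel U ∧ U.Normal ∧ U ≤ H ∧ IsUC₁ (U.subgroupOf H) φ := by
  obtain ⟨_, ⟨U₁, hU₁, rfl⟩, h⟩ := hφ
  obtain ⟨U₂, hU₂, hle₂⟩ := hH
  obtain ⟨U, hU, hn, hle, hle'⟩ := 𝓛.exists_normal_le_inf U₁ U₂ hU₁ hU₂
  refine ⟨U, hU, hn, hle'.trans hle₂, fun a b hab => ?_⟩
  have := h a (a⁻¹ * b) (hle (Subgroup.mem_subgroupOf.1 hab))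
  rw [mul_inv_cancel_left] at this
  exact this.symm

lemma IsLC₂.exists_isUC_sub {φ : H × H → X} (hφ : IsLC₂ (𝓛.sub H) φ) (hH : 𝓛.IsOpen H) :
    ∃ U, 𝓛.IsLevel U ∧ U.Normal ∧ U ≤ H ∧ IsUC₂ (U.subgroupOf H) φ := by
  obtain ⟨_, ⟨U₁, hU₁, rfl⟩, h⟩ := hφ
  obtain ⟨U₂, hU₂, hle₂⟩ := hH
  obtain ⟨U, hU, hn, hle, hle'⟩ := 𝓛.exists_normal_le_inf U₁ U₂ hU₁ hU₂
  refine ⟨U, hU, hn, hle'.trans hle₂, fun a₁ a₂ b₁ b₂ h₁ h₂ => ?_⟩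
  have := h a₁ a₂ (a₁⁻¹ * b₁) (a₂⁻¹ * b₂) (hle (Subgroup.mem_subgroupOf.1 h₁))
    (hle (Subgroup.mem_subgroupOf.1 h₂))
  rw [mul_inv_cancel_left, mul_inv_cancel_left] at this
  exact this.symm

lemma IsLC₃.exists_isUC_sub {φ : H × H × H → X} (hφ : IsLC₃ (𝓛.sub H) φ) (hH : 𝓛.IsOpen H) :
    ∃ U, 𝓛.IsLevel U ∧ U.Normal ∧ U ≤ H ∧ IsUC₃ (U.subgroupOf H) φ := by
  obtain ⟨_, ⟨U₁, hU₁, rfl⟩, h⟩ := hφ
  obtain ⟨U₂, hU₂, hle₂⟩ := hH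
  obtain ⟨U, hU, hn, hle, hle'⟩ := 𝓛.exists_normal_le_inf U₁ U₂ hU₁ hU₂
  refine ⟨U, hU, hn, hle'.trans hle₂, fun a₁ a₂ a₃ b₁ b₂ b₃ h₁ h₂ h₃ => ?_⟩
  have := h a₁ a₂ a₃ (a₁⁻¹ * b₁) (a₂⁻¹ * b₂) (a₃⁻¹ * b₃) (hle (Subgroup.mem_subgroupOf.1 h₁))
    (hle (Subgroup.mem_subgroupOf.1 h₂)) (hle (Subgroup.mem_subgroupOf.1 h₃))
  rw [mul_inv_cancel_left, mul_inv_cancel_left, mul_inv_cancel_left] at this
  exact this.symm

end UCsub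

section ModU

variable {H : Subgroup G} (s : IndSection H) (U : Subgroup G) [hUn : U.Normal]

include hUn in
lemma IndSection.η_mul_mem (hUH : U ≤ H) (z u : G) (hu : u ∈ U) :
    ((s.η z : H) : G)⁻¹ * ((s.η (z * u) : H) : G) ∈ U := by
  have hconj : z * u * z⁻¹ ∈ U := hUn.conj_mem u hu z
  have hz : z * u = ((⟨z * u * z⁻¹, hUH hconj⟩ : H) : G) * z := by
    simp only [inv_mul_cancel_right]
  rw [hz, s.map_mul, Subgroup.coe_mul]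
  have h2 := hUn.conj_mem _ hconj ((s.η z : H) : G)⁻¹
  simpa only [inv_inv, mul_assoc] using h2

include hUn in
lemma IndSection.mk_η_congr (hUH : U ≤ H) (z z' : G) (h : (z : G ⧸ U) = (z' : G ⧸ U)) :
    (((s.η z : H) : G) : G ⧸ U) = (((s.η z' : H) : G) : G ⧸ U) := by
  have hz : z' = z * (z⁻¹ * z') := by simp only [mul_inv_cancel_left]
  rw [hz]
  exact QuotientGroup.eq.2 (s.η_mul_mem U hUH z (z⁻¹ * z') (QuotientGroup.eq.1 h))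

/-- the map induced by `η` on `G ⧸ U` -/
noncomputable def IndSection.ηbar (_hUH : U ≤ H) (q : G ⧸ U) : G ⧸ U :=
  (((s.η (Quotient.out q) : H) : G) : G ⧸ U)

lemma IndSection.mk_η (hUH : U ≤ H) (z : G) :
    (((s.η z : H) : G) : G ⧸ U) = s.ηbar U hUH (z : G ⧸ U) := by
  unfold IndSection.ηbar
  apply s.mk_η_congr U hUH
  exact (QuotientGroup.out_eq' (z : G ⧸ U)).symm

end ModU

section LC

variable {H : Subgroup G} {W : Type*} [AddCommGroup W] [Module k W] (σ : Representation k H W)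
  (s : IndSection H) {𝓛 : Levels G}

/-! ### `sh` preserves level-constancy -/

lemma isLC₁_sh1 {F : G → indSpace H σ} (hF : IsLC₁ 𝓛 F) : IsLC₁ (𝓛.sub H) (sh1 H σ F) :=
  (hF.comp_hom 𝓛 (𝓛.continuous_comap H.subtype)).comp (fun f : indSpace H σ => (f : G → W) 1)

lemma isLC₂_sh2 {F : G × G → indSpace H σ} (hF : IsLC₂ 𝓛 F) : IsLC₂ (𝓛.sub H) (sh2 H σ F) :=
  (hF.comp_hom 𝓛 (𝓛.continuous_comap H.subtype)).comp (fun f : indSpace H σ => (f : G → W) 1)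

lemma isLC₃_sh3 {F : G × G × G → indSpace H σ} (hF : IsLC₃ 𝓛 F) :
    IsLC₃ (𝓛.sub H) (sh3 H σ F) :=
  (hF.comp_hom 𝓛 (𝓛.continuous_comap H.subtype)).comp (fun f : indSpace H σ => (f : G → W) 1)

/-! ### `ind` preserves level-constancy -/

variable {σ}

lemma isUC₁_ind1 (U : Subgroup G) [U.Normal] (hUH : U ≤ H) {φ : H → W}
    (hφ : IsUC₁ (U.subgroupOf H) φ) : IsUC₁ U (ind1 σ s φ) := by
  intro a b hab
  have hab' : (a : G ⧸ U) = (b : G ⧸ U) := QuotientGroup.eq.2 hab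
  ext y
  simp only [ind1_apply, hom1]
  congr 1
  apply hφ
  rw [Subgroup.mem_subgroupOf]
  apply QuotientGroup.eq.1
  simp only [Subgroup.coe_mul, Subgroup.coe_inv, QuotientGroup.mk_mul, QuotientGroup.mk_inv,
    s.mk_η U hUH, hab']

lemma isUC₂_ind2 (U : Subgroup G) [U.Normal] (hUH : U ≤ H) {φ : H × H → W}
    (hφ : IsUC₂ (U.subgroupOf H) φ) : IsUC₂ U (ind2 σ s φ) := by
  intro a₁ a₂ b₁ b₂ h₁ h₂
  have h₁' : (a₁ : G ⧸ U) = (b₁ : G ⧸ U) := QuotientGroup.eq.2 h₁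
  have h₂' : (a₂ : G ⧸ U) = (b₂ : G ⧸ U) := QuotientGroup.eq.2 h₂
  ext y
  simp only [ind2_apply, hom2]
  congr 1
  apply hφ
  · rw [Subgroup.mem_subgroupOf]
    apply QuotientGroup.eq.1
    simp only [Subgroup.coe_mul, Subgroup.coe_inv, QuotientGroup.mk_mul, QuotientGroup.mk_inv,
      s.mk_η U hUH, h₁']
  · rw [Subgroup.mem_subgroupOf]
    apply QuotientGroup.eq.1
    simp only [Subgroup.coe_mul, Subgroup.coe_inv, QuotientGroup.mk_mul, QuotientGroup.mk_inv,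
      s.mk_η U hUH, h₁', h₂']

lemma isUC₃_ind3 (U : Subgroup G) [U.Normal] (hUH : U ≤ H) {φ : H × H × H → W}
    (hφ : IsUC₃ (U.subgroupOf H) φ) : IsUC₃ U (ind3 σ s φ) := by
  intro a₁ a₂ a₃ b₁ b₂ b₃ h₁ h₂ h₃
  have h₁' : (a₁ : G ⧸ U) = (b₁ : G ⧸ U) := QuotientGroup.eq.2 h₁
  have h₂' : (a₂ : G ⧸ U) = (b₂ : G ⧸ U) := QuotientGroup.eq.2 h₂
  have h₃' : (a₃ : G ⧸ U) = (b₃ : G ⧸ U) := QuotientGroup.eq.2 h₃
  ext y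
  simp only [ind3_apply, hom3]
  congr 1
  apply hφ
  · rw [Subgroup.mem_subgroupOf]
    apply QuotientGroup.eq.1
    simp only [Subgroup.coe_mul, Subgroup.coe_inv, QuotientGroup.mk_mul, QuotientGroup.mk_inv,
      s.mk_η U hUH, h₁']
  · rw [Subgroup.mem_subgroupOf]
    apply QuotientGroup.eq.1
    simp only [Subgroup.coe_mul, Subgroup.coe_inv, QuotientGroup.mk_mul, QuotientGroup.mk_inv,
      s.mk_η U hUH, h₁', h₂']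
  · rw [Subgroup.mem_subgroupOf]
    apply QuotientGroup.eq.1
    simp only [Subgroup.coe_mul, Subgroup.coe_inv, QuotientGroup.mk_mul, QuotientGroup.mk_inv,
      s.mk_η U hUH, h₁', h₂', h₃']

lemma isLC₁_ind1 (hH : 𝓛.IsOpen H) {φ : H → W} (hφ : IsLC₁ (𝓛.sub H) φ) :
    IsLC₁ 𝓛 (ind1 σ s φ) := by
  obtain ⟨U, hU, hn, hUH, hUC⟩ := hφ.exists_isUC_sub hH
  exact (isUC₁_ind1 s U hUH hUC).isLC 𝓛 hU

lemma isLC₂_ind2 (hH : 𝓛.IsOpen H) {φ : H × H → W} (hφ : IsLC₂ (𝓛.sub H) φ) :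
    IsLC₂ 𝓛 (ind2 σ s φ) := by
  obtain ⟨U, hU, hn, hUH, hUC⟩ := hφ.exists_isUC_sub hH
  exact (isUC₂_ind2 s U hUH hUC).isLC 𝓛 hU

lemma isLC₃_ind3 (hH : 𝓛.IsOpen H) {φ : H × H × H → W} (hφ : IsLC₃ (𝓛.sub H) φ) :
    IsLC₃ 𝓛 (ind3 σ s φ) := by
  obtain ⟨U, hU, hn, hUH, hUC⟩ := hφ.exists_isUC_sub hH
  exact (isUC₃_ind3 s U hUH hUC).isLC 𝓛 hU

/-! ### the prism operators preserve level-constancy -/

lemma iPhi2_congr (U : Subgroup G) [U.Normal] {F : G × G → indSpace H σ} (hF : IsUC₂ U F)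
    (x₀ x₁ x₂ x₁' x₂' : G) (h₁ : (x₁ : G ⧸ U) = (x₁' : G ⧸ U))
    (h₂ : (x₂ : G ⧸ U) = (x₂' : G ⧸ U)) :
    iPhi2 H σ F x₀ x₁ x₂ = iPhi2 H σ F x₀ x₁' x₂' := by
  unfold iPhi2
  rw [hF (x₀⁻¹ * x₁) (x₁⁻¹ * x₂) (x₀⁻¹ * x₁') (x₁'⁻¹ * x₂')]
  · apply QuotientGroup.eq.1
    simp only [QuotientGroup.mk_mul, QuotientGroup.mk_inv, h₁]
  · apply QuotientGroup.eq.1
    simp only [QuotientGroup.mk_mul, QuotientGroup.mk_inv, h₁, h₂]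

lemma iPhi3_congr (U : Subgroup G) [U.Normal] {F : G × G × G → indSpace H σ} (hF : IsUC₃ U F)
    (x₀ x₁ x₂ x₃ x₁' x₂' x₃' : G) (h₁ : (x₁ : G ⧸ U) = (x₁' : G ⧸ U))
    (h₂ : (x₂ : G ⧸ U) = (x₂' : G ⧸ U)) (h₃ : (x₃ : G ⧸ U) = (x₃' : G ⧸ U)) :
    iPhi3 H σ F x₀ x₁ x₂ x₃ = iPhi3 H σ F x₀ x₁' x₂' x₃' := by
  unfold iPhi3
  rw [hF (x₀⁻¹ * x₁) (x₁⁻¹ * x₂) (x₂⁻¹ * x₃) (x₀⁻¹ * x₁') (x₁'⁻¹ * x₂') (x₂'⁻¹ * x₃')]
  · apply QuotientGroup.eq.1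
    simp only [QuotientGroup.mk_mul, QuotientGroup.mk_inv, h₁]
  · apply QuotientGroup.eq.1
    simp only [QuotientGroup.mk_mul, QuotientGroup.mk_inv, h₁, h₂]
  · apply QuotientGroup.eq.1
    simp only [QuotientGroup.mk_mul, QuotientGroup.mk_inv, h₂, h₃]

lemma isUC₁_prism2 (U : Subgroup G) [U.Normal] (hUH : U ≤ H) {F : G × G → indSpace H σ}
    (hF : IsUC₂ U F) : IsUC₁ U (prism2 σ s F) := by
  intro a b hab
  have hab' : (a : G ⧸ U) = (b : G ⧸ U) := QuotientGroup.eq.2 hab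
  ext y
  simp only [prism2_apply]
  rw [iPhi2_congr U hF _ y (y * a) y (y * b) rfl
      (by simp only [QuotientGroup.mk_mul, hab']),
    iPhi2_congr U hF _ (s.η (y * a)) (y * a) (s.η (y * b)) (y * b)
      (by simp only [QuotientGroup.mk_mul, s.mk_η U hUH, hab'])
      (by simp only [QuotientGroup.mk_mul, hab'])]

lemma isUC₂_prism3 (U : Subgroup G) [U.Normal] (hUH : U ≤ H) {F : G × G × G → indSpace H σ}
    (hF : IsUC₃ U F) : IsUC₂ U (prism3 σ s F) := by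
  intro a₁ a₂ b₁ b₂ h₁ h₂
  have h₁' : (a₁ : G ⧸ U) = (b₁ : G ⧸ U) := QuotientGroup.eq.2 h₁
  have h₂' : (a₂ : G ⧸ U) = (b₂ : G ⧸ U) := QuotientGroup.eq.2 h₂
  ext y
  simp only [prism3_apply]
  rw [iPhi3_congr U hF _ y (y * a₁) (y * a₁ * a₂) y (y * b₁) (y * b₁ * b₂) rfl
      (by simp only [QuotientGroup.mk_mul, h₁'])
      (by simp only [QuotientGroup.mk_mul, h₁', h₂']),
    iPhi3_congr U hF _ (s.η (y * a₁)) (y * a₁) (y * a₁ * a₂) (s.η (y * b₁)) (y * b₁)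
      (y * b₁ * b₂)
      (by simp only [QuotientGroup.mk_mul, s.mk_η U hUH, h₁'])
      (by simp only [QuotientGroup.mk_mul, h₁'])
      (by simp only [QuotientGroup.mk_mul, h₁', h₂']),
    iPhi3_congr U hF _ (s.η (y * a₁)) (s.η (y * a₁ * a₂)) (y * a₁ * a₂) (s.η (y * b₁))
      (s.η (y * b₁ * b₂)) (y * b₁ * b₂)
      (by simp only [QuotientGroup.mk_mul, s.mk_η U hUH, h₁'])
      (by simp only [QuotientGroup.mk_mul, s.mk_η U hUH, h₁', h₂'])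
      (by simp only [QuotientGroup.mk_mul, h₁', h₂'])]

lemma isLC₁_prism2 (hH : 𝓛.IsOpen H) {F : G × G → indSpace H σ} (hF : IsLC₂ 𝓛 F) :
    IsLC₁ 𝓛 (prism2 σ s F) := by
  obtain ⟨U, hU, hn, hUH, hUC⟩ := hF.exists_isUC hH
  exact (isUC₁_prism2 s U hUH hUC).isLC 𝓛 hU

lemma isLC₂_prism3 (hH : 𝓛.IsOpen H) {F : G × G × G → indSpace H σ} (hF : IsLC₃ 𝓛 F) :
    IsLC₂ 𝓛 (prism3 σ s F) := by
  obtain ⟨U, hU, hn, hUH, hUC⟩ := hF.exists_isUC hH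
  exact (isUC₂_prism3 s U hUH hUC).isLC 𝓛 hU

end LC

end Fermat.Agent.S55
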